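import Fermat.Agent.Subspace.UnitEquationNumberField
import Mathlib.FieldTheory.IntermediateField.Adjoin.Basic
import Mathlib.LinearAlgebra.Basis.VectorSpace

/-!
# The unit equation in several variables: number fields and constants

For a field of algebraic numbers the finiteness is that over number fields; it passes from a field
to a bigger one with the group kept inside the smaller, by applying a linear functional.
-/

set_option autoImplicit false

noncomputable section

open Finset

namespace FA.UnitEquationFields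

/-- The solutions of `∑ a i * u i = 1` on `s` in `Γ` without vanishing subsum. -/
def solutionsOn {K : Type*} [Field K] {ι : Type*} (Γ : Subgroup Kˣ) (a : ι → K) (s : Finset ι) :
    Set (ι → Kˣ) :=
  {u | (∀ i, u i ∈ Γ) ∧ (∀ i ∉ s, u i = 1) ∧ ∑ i ∈ s, a i * u i = 1 ∧
    ∀ T ⊆ s, T.Nonempty → ∑ i ∈ T, a i * u i ≠ 0}

/-- The unit equation in several variables is finite in `Γ`. -/
def UnitEqFinite {K : Type*} [Field K] (Γ : Subgroup Kˣ) : Prop :=
  ∀ (n : ℕ) (a : Fin n → K) (s : Finset (Fin n)), (∀ i ∈ s, a i ≠ 0) → (solutionsOn Γ a s).Finite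

theorem UnitEqFinite.mono {K : Type*} [Field K] {Γ Γ' : Subgroup Kˣ} (h : UnitEqFinite Γ)
    (hle : Γ' ≤ Γ) : UnitEqFinite Γ' := fun n a s ha =>
  (h n a s ha).subset fun _ hu => ⟨fun i => hle (hu.1 i), hu.2⟩

/-- The division hull: the elements with a positive power in the group. -/
def divisionHull {G : Type*} [CommGroup G] (Γ : Subgroup G) : Subgroup G where
  carrier := {x | ∃ m : ℕ, m ≠ 0 ∧ x ^ m ∈ Γ}
  one_mem' := ⟨1, one_ne_zero, by simp⟩
  mul_mem' := fun {x y} ⟨m, hm, hx⟩ ⟨k, hk, hy⟩ => ⟨m * k, mul_ne_zero hm hk, by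
    rw [mul_pow, pow_mul, mul_comm m k, pow_mul]
    exact mul_mem (pow_mem hx k) (pow_mem hy m)⟩
  inv_mem' := fun {x} ⟨m, hm, hx⟩ => ⟨m, hm, by rw [inv_pow]; exact inv_mem hx⟩

theorem mem_divisionHull {G : Type*} [CommGroup G] {Γ : Subgroup G} {x : G} :
    x ∈ divisionHull Γ ↔ ∃ m : ℕ, m ≠ 0 ∧ x ^ m ∈ Γ :=
  Iff.rfl

theorem le_divisionHull {G : Type*} [CommGroup G] (Γ : Subgroup G) : Γ ≤ divisionHull Γ :=
  fun x hx => ⟨1, one_ne_zero, by rwa [pow_one]⟩

theorem map_divisionHull_le {G H : Type*} [CommGroup G] [CommGroup H] (f : G →* H)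
    (Γ : Subgroup G) : (divisionHull Γ).map f ≤ divisionHull (Γ.map f) := by
  rintro _ ⟨x, ⟨m, hm, hx⟩, rfl⟩
  exact ⟨m, hm, x ^ m, hx, map_pow f x m⟩

theorem comap_divisionHull {G H : Type*} [CommGroup G] [CommGroup H] (f : G →* H)
    (Γ : Subgroup H) : (divisionHull Γ).comap f = divisionHull (Γ.comap f) := by
  ext x
  simp only [Subgroup.mem_comap, mem_divisionHull, map_pow]

theorem UnitEqFinite.fintype {K : Type*} [Field K] {Γ : Subgroup Kˣ} (h : UnitEqFinite Γ)
    {ι : Type*} [Fintype ι] (a : ι → K) (ha : ∀ i, a i ≠ 0) :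
    {u : ι → Kˣ | (∀ i, u i ∈ Γ) ∧ ∑ i, a i * u i = 1 ∧
      ∀ T : Finset ι, T.Nonempty → ∑ i ∈ T, a i * u i ≠ 0}.Finite := by
  classical
  set e := Fintype.equivFin ι
  refine ((h _ (a ∘ e.symm) univ fun i _ => ha _).preimage
    (f := fun u : ι → Kˣ => u ∘ e.symm) ((e.symm.surjective.injective_comp_right).injOn)).subset
    fun u hu => ⟨fun i => hu.1 _, fun i hi => absurd (mem_univ i) hi, ?_, fun T _ hT hc => ?_⟩
  · rw [← hu.2.1]
    exact e.symm.sum_comp fun i => a i * u i
  · refine hu.2.2 (T.map e.symm.toEmbedding) (hT.map) ?_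
    simpa [sum_map] using hc

/-- The equation descends along an embedding of fields. -/
theorem UnitEqFinite.of_map {K L : Type*} [Field K] [Field L] (e : K →+* L) {Γ : Subgroup Kˣ}
    (h : UnitEqFinite (Γ.map (Units.map (e : K →* L)))) : UnitEqFinite Γ := by
  classical
  intro n a s ha
  refine Set.Finite.of_injOn (f := fun (u : Fin n → Kˣ) i => Units.map (e : K →* L) (u i))
    (t := solutionsOn (Γ.map (Units.map (e : K →* L))) (fun i => e (a i)) s)
    (fun u hu => ⟨fun i => Subgroup.mem_map_of_mem _ (hu.1 i),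
      fun i hi => by simp [hu.2.1 i hi], ?_, fun T hT hne hc => hu.2.2.2 T hT hne (e.injective ?_)⟩)
    ((Units.map_injective e.injective).comp_left.injOn)
    (h n (fun i => e (a i)) s fun i hi => (map_ne_zero e).2 (ha i hi))
  · rw [← map_one e, ← hu.2.2.1, map_sum]
    exact sum_congr rfl fun i _ => by simp
  · rw [map_zero, ← hc, map_sum]
    exact sum_congr rfl fun i _ => by simp

/-- **Algebraic numbers**: the theorem over number fields. -/
theorem unitEqFinite_of_isAlgebraic {C : Type*} [Field C] [CharZero C] [Algebra.IsAlgebraic ℚ C]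
    {Γ : Subgroup Cˣ} (hΓ : Γ.FG) : UnitEqFinite Γ := by
  classical
  intro n a s ha
  obtain ⟨G, hG⟩ := hΓ
  set A : Set C := ↑(G.image (fun g : Cˣ => (g : C)) ∪ univ.image a)
  haveI : FiniteDimensional ℚ (IntermediateField.adjoin ℚ A) :=
    haveI : Finite A := (Finset.finite_toSet _).to_subtype
    IntermediateField.finiteDimensional_adjoin fun x _ =>
      (Algebra.IsAlgebraic.isAlgebraic x).isIntegral
  set L := IntermediateField.adjoin ℚ A
  haveI : NumberField L := ⟨⟩
  set f : Lˣ →* Cˣ := Units.map (L.val : L →* C)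
  have hf : Function.Injective f := Units.map_injective Subtype.val_injective
  have hgen : ∀ g ∈ G, ∃ g' : Lˣ, f g' = g := fun g hg => by
    have hm : (g : C) ∈ L := IntermediateField.subset_adjoin ℚ A
      (mem_coe.2 (mem_union_left _ (mem_image_of_mem _ hg)))
    exact ⟨Units.mk0 ⟨g, hm⟩ fun h => g.ne_zero (congrArg Subtype.val h), Units.ext rfl⟩
  choose! lift hlift using hgen
  set Γ' := Subgroup.closure (lift '' (G : Set Cˣ))
  have hmap : Γ'.map f = Γ := by
    rw [MonoidHom.map_closure, ← Set.image_comp, ← hG]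
    congr 1
    exact (Set.image_congr fun g hg => hlift g hg).trans (Set.image_id _)
  set a' : s → L := fun i => ⟨a i, IntermediateField.subset_adjoin ℚ A
    (mem_coe.2 (mem_union_right _ (mem_image_of_mem _ (mem_univ _))))⟩
  have hfin := FA.Subspace.finite_group_equation (Γ := Γ') ⟨G.image lift, by simp [Γ']⟩
    (fun i => a' (s.equivFin.symm i))
    fun i h => ha _ (s.equivFin.symm i).2 (congrArg Subtype.val h)
  refine (hfin.image fun w i => if h : i ∈ s then f (w (s.equivFin ⟨i, h⟩)) else 1).subset ?_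
  intro u hu
  have hw : ∀ i : s, ∃ w ∈ Γ', f w = u i := fun i => by
    obtain ⟨w, hw, he⟩ := Subgroup.mem_map.1 (hmap.ge (hu.1 i))
    exact ⟨w, hw, he⟩
  choose w hwmem hwu using hw
  have hval : ∀ i : s, ((w i : L) : C) = u i := fun i => congrArg Units.val (hwu i)
  refine ⟨fun i => w (s.equivFin.symm i), ⟨fun i => hwmem _, ?_, fun T hT hc => ?_⟩, ?_⟩
  · apply Subtype.val_injective
    push_cast
    rw [← hu.2.2.1, ← sum_coe_sort s, ← s.equivFin.symm.sum_comp]
    exact sum_congr rfl fun i _ => by rw [hval]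
  · refine hu.2.2.2 (T.map (s.equivFin.symm.toEmbedding.trans (Function.Embedding.subtype _)))
      (fun i hi => ?_) hT.map ?_
    · obtain ⟨j, -, rfl⟩ := mem_map.1 hi
      exact (s.equivFin.symm j).2
    · have := congrArg Subtype.val hc
      push_cast at this
      rw [sum_map]
      simpa [hval, a'] using this
  · funext i
    by_cases h : i ∈ s
    · simp [dif_pos h, hwu]
    · simp [dif_neg h, hu.2.1 i h]

/-- **Constants**: the equation passes to a bigger field, the group staying in the smaller. -/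
theorem UnitEqFinite.map {C F : Type*} [Field C] [Field F] [Algebra C F] {Γ : Subgroup Cˣ}
    (h : UnitEqFinite Γ) :
    UnitEqFinite (Γ.map (Units.map (algebraMap C F : C →* F))) := by
  classical
  intro n a s ha
  obtain ⟨φ, hφ⟩ := LinearMap.exists_leftInverse_of_injective (Algebra.linearMap C F)
    (LinearMap.ker_eq_bot.2 (algebraMap C F).injective)
  have hφ1 : φ 1 = 1 := by simpa using LinearMap.congr_fun hφ 1
  induction s using Finset.strongInduction generalizing a with
  | _ s ih =>
    set f : Cˣ →* Fˣ := Units.map (algebraMap C F : C →* F)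
    have hf : Function.Injective f := Units.map_injective (algebraMap C F).injective
    refine Set.Finite.subset (s := ⋃ S ∈ ((s.powerset.filter fun S => S.Nonempty ∧
        ∀ i ∈ S, φ (a i) ≠ 0) : Set (Finset (Fin n))), ⋃ c ∈ solutionsOn Γ (φ ∘ a) S,
          {u | u ∈ solutionsOn (Γ.map f) a s ∧ ∀ i ∈ S, u i = f (c i)}) ?_ fun u hu => ?_
    · refine Set.Finite.biUnion (Finset.finite_toSet _) fun S hS => ?_
      obtain ⟨hSs, hSne, hS0⟩ : S ⊆ s ∧ S.Nonempty ∧ ∀ i ∈ S, φ (a i) ≠ 0 := by
        simpa using hS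
      refine (h n _ S hS0).biUnion fun c _ => ?_
      set e : F := 1 - ∑ i ∈ S, a i * (f (c i) : F)
      have hsplit : ∀ u ∈ {u | u ∈ solutionsOn (Γ.map f) a s ∧ ∀ i ∈ S, u i = f (c i)},
          ∑ i ∈ s \ S, a i * (u i : F) = e := by
        rintro u ⟨⟨-, -, hsum, -⟩, hfix⟩
        rw [eq_sub_iff_add_eq, ← hsum, ← sum_sdiff hSs]
        congr 1
        exact sum_congr rfl fun i hi => by rw [hfix i hi]
      rcases (s \ S).eq_empty_or_nonempty with hrest | hrest
      · refine Set.Subsingleton.finite fun u hu v hv => funext fun i => ?_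
        by_cases hi : i ∈ s
        · rw [hu.2 i ((sdiff_eq_empty_iff_subset.1 hrest) hi),
            hv.2 i ((sdiff_eq_empty_iff_subset.1 hrest) hi)]
        · rw [hu.1.2.1 i hi, hv.1.2.1 i hi]
      rcases eq_or_ne e 0 with he | he
      · refine Set.Subsingleton.finite fun u hu => absurd ?_ (hu.1.2.2.2 _ sdiff_subset hrest)
        rw [hsplit u hu, he]
      have hlt : s \ S ⊂ s := sdiff_ssubset hSs hSne
      refine Set.Finite.of_injOn (f := fun (u : Fin n → Fˣ) i => if i ∈ S then 1 else u i)
        (fun u hu => ?_) (fun u hu v hv he => funext fun i => ?_)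
        (ih _ hlt (fun i => a i / e) fun i hi => div_ne_zero (ha i (mem_sdiff.1 hi).1) he)
      · refine ⟨fun i => ?_, fun i hi => ?_, ?_, fun T hT hne hc => ?_⟩
        · dsimp only; split_ifs
          exacts [one_mem _, hu.1.1 i]
        · dsimp only; split_ifs with h'
          exacts [rfl, hu.1.2.1 i fun hs => hi (mem_sdiff.2 ⟨hs, h'⟩)]
        · dsimp only
          rw [sum_congr rfl fun i hi => by rw [if_neg (mem_sdiff.1 hi).2, div_mul_eq_mul_div],
            ← sum_div, hsplit u hu, div_self he]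
        · dsimp only at hc
          rw [sum_congr rfl fun i hi => by rw [if_neg (mem_sdiff.1 (hT hi)).2, div_mul_eq_mul_div],
            ← sum_div, div_eq_zero_iff, or_iff_left he] at hc
          exact hu.1.2.2.2 T (hT.trans sdiff_subset) hne hc
      · by_cases hi : i ∈ S
        · rw [hu.2 i hi, hv.2 i hi]
        · simpa [hi] using congrFun he i
    · have hc : ∀ i, ∃ c ∈ Γ, f c = u i := fun i => Subgroup.mem_map.1 (hu.1 i)
      choose c hcmem hcu using hc
      have hval : ∀ i, algebraMap C F (c i : C) = u i := fun i => congrArg Units.val (hcu i)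
      have hsum : ∑ i ∈ s, φ (a i) * (c i : C) = 1 := by
        have h1 := congrArg φ hu.2.2.1
        rw [map_sum, hφ1] at h1
        rw [← h1]
        exact sum_congr rfl fun i _ => by
          rw [← hval, mul_comm (a i), ← Algebra.smul_def, map_smul, smul_eq_mul, mul_comm]
      obtain ⟨S, hS, hmin⟩ := exists_min_image
        (s.powerset.filter fun S => ∑ i ∈ S, φ (a i) * (c i : C) = 1) Finset.card
        ⟨s, by simp [hsum]⟩
      obtain ⟨hSs, hS1⟩ : S ⊆ s ∧ ∑ i ∈ S, φ (a i) * (c i : C) = 1 := by simpa using hS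
      have hnd : ∀ T ⊆ S, T.Nonempty → ∑ i ∈ T, φ (a i) * (c i : C) ≠ 0 := fun T hT hne h0 => by
        have h' := hmin (S \ T) (by
          simp only [mem_filter, mem_powerset]
          refine ⟨sdiff_subset.trans hSs, ?_⟩
          rw [sum_sdiff_eq_sub hT, hS1, h0, sub_zero])
        exact absurd h' (not_le.2 (card_lt_card (sdiff_ssubset hT hne)))
      have hS0 : ∀ i ∈ S, φ (a i) ≠ 0 := fun i hi h0 =>
        hnd {i} (singleton_subset_iff.2 hi) (singleton_nonempty i) (by simp [h0])
      have hSne : S.Nonempty := by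
        rcases S.eq_empty_or_nonempty with rfl | hne
        · simp at hS1
        · exact hne
      refine Set.mem_biUnion (x := S) (by simpa [hSs, hSne] using hS0) ?_
      refine Set.mem_biUnion (x := fun i => if i ∈ S then c i else 1)
        ⟨fun i => ?_, fun i hi => if_neg hi, ?_, fun T hT hne h0 => hnd T hT hne ?_⟩
        ⟨hu, fun i hi => by simp only [if_pos hi, hcu]⟩
      · dsimp only; split_ifs
        exacts [hcmem i, one_mem _]
      · rw [← hS1]
        exact sum_congr rfl fun i hi => by simp [if_pos hi]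
      · rw [← h0]
        exact sum_congr rfl fun i hi => by simp [if_pos (hT hi)]

end FA.UnitEquationFields

end
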