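import Mathlib.FieldTheory.Galois.Basic
import Mathlib.FieldTheory.IsAlgClosed.Basic
import Mathlib.FieldTheory.Minpoly.IsConjRoot
import Mathlib.RingTheory.Polynomial.Cyclotomic.Roots
import Mathlib.RingTheory.RootsOfUnity.EnoughRootsOfUnity
import Mathlib.RingTheory.RootsOfUnity.AlgebraicallyClosed
import Mathlib.NumberTheory.Primorial
import Mathlib.Data.Nat.Factorization.Basic
import Mathlib.Algebra.BigOperators.Field
import Mathlib.Tactic.LinearCombination

/-!
# Mann's lemma over a number field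

For a number field `K` there is `m` such that every exponent congruent to one modulo the common
divisor of `m` and `N` is the action of an automorphism over `K` on the roots of unity of order `N`.
Hence the ratios in a relation over `K` between `k` roots of unity without vanishing part have
order dividing `m` times the primorial of `k`, whatever the coefficients.
-/

set_option autoImplicit false

noncomputable section

open Finset Polynomial

namespace FA.UnitEquationFields

/-- Summands that an endomorphism multiplies by factors it fixes: one factor in a minimal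
relation over the fixed elements. -/
theorem eigen_constant {A : Type*} [Field A] (σ : A →+* A) {ι : Type*} (s : Finset ι)
    (c u z : ι → A) (hc : ∀ i ∈ s, σ (c i) = c i) (hz : ∀ i ∈ s, σ (z i) = z i)
    (hu : ∀ i ∈ s, σ (u i) = z i * u i) (h0 : ∑ i ∈ s, c i * u i = 0)
    (hmin : ∀ T ⊆ s, T.Nonempty → ∑ i ∈ T, c i * u i = 0 → T = s) :
    ∀ i ∈ s, ∀ j ∈ s, z i = z j := by
  classical
  intro i hi j hj
  have hpow : ∀ k : ℕ, ∑ l ∈ s, c l * u l * z l ^ k = 0 := fun k => by
    induction k with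
    | zero => simpa using h0
    | succ k ih =>
      rw [← map_zero σ, ← ih, map_sum]
      exact sum_congr rfl fun l hl => by
        rw [map_mul, map_mul, map_pow, hc l hl, hz l hl, hu l hl]; ring
  set P : A[X] := ∏ w ∈ (s.image z).erase (z i), (X - C w)
  have hP : ∑ l ∈ s, c l * u l * P.eval (z l) = 0 := by
    rw [sum_congr rfl fun l _ => by rw [eval_eq_sum_range, mul_sum], sum_comm]
    refine sum_eq_zero fun k _ => ?_
    rw [sum_congr rfl fun l _ => show c l * u l * (P.coeff k * z l ^ k) =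
      P.coeff k * (c l * u l * z l ^ k) by ring, ← mul_sum, hpow, mul_zero]
  have hne : P.eval (z i) ≠ 0 := by
    simp only [P, eval_prod, eval_sub, eval_X, eval_C, prod_ne_zero_iff]
    exact fun w hw => sub_ne_zero.2 (ne_of_mem_erase hw).symm
  have hsplit : ∑ l ∈ s, c l * u l * P.eval (z l) =
      (∑ l ∈ s with z l = z i, c l * u l) * P.eval (z i) := by
    rw [sum_mul, sum_filter]
    refine sum_congr rfl fun l hl => ?_
    split_ifs with h
    · rw [h]
    · have : P.eval (z l) = 0 := by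
        simp only [P, eval_prod, eval_sub, eval_X, eval_C]
        exact prod_eq_zero (mem_erase.2 ⟨h, mem_image_of_mem z hl⟩) (sub_self _)
      rw [this, mul_zero]
  rw [hsplit, mul_eq_zero, or_iff_left hne] at hP
  have hT := hmin (s.filter fun l => z l = z i) (filter_subset _ _)
    ⟨i, mem_filter.2 ⟨hi, rfl⟩⟩ hP
  exact (mem_filter.1 (hT.ge hj)).2.symm

variable {A : Type*} [Field A] [CharZero A] [IsAlgClosed A] [Algebra.IsAlgebraic ℚ A]

/-- The field of the roots of unity of order dividing `L`. -/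
def rootsField (A : Type*) [Field A] [CharZero A] (L : ℕ) : IntermediateField ℚ A :=
  IntermediateField.adjoin ℚ {x : A | x ^ L = 1}

omit [IsAlgClosed A] [Algebra.IsAlgebraic ℚ A] in
theorem rootsField_mono {L L' : ℕ} (h : L ∣ L') : rootsField A L ≤ rootsField A L' := by
  obtain ⟨k, rfl⟩ := h
  refine IntermediateField.adjoin.mono _ _ _ fun x (hx : x ^ L = 1) => ?_
  show x ^ (L * k) = 1
  rw [pow_mul, hx, one_pow]

/-- The cyclotomic part of a number field is reached at a level. -/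
theorem exists_level (K : IntermediateField ℚ A) [FiniteDimensional ℚ K] :
    ∃ m : ℕ, 0 < m ∧ ∀ L : ℕ, 0 < L → m ∣ L → K ⊓ rootsField A L ≤ rootsField A m := by
  set d : ℕ → ℕ := fun k =>
    Module.finrank ℚ K - Module.finrank ℚ ↥(K ⊓ rootsField A (k + 1))
  refine ⟨Function.argmin d + 1, Nat.succ_pos _, fun L hL hmL => ?_⟩
  obtain ⟨k, rfl⟩ : ∃ k, L = k + 1 := ⟨L - 1, by omega⟩
  have hmin : d (Function.argmin d) ≤ d k := not_lt.1 (Function.not_lt_argmin d k)
  haveI : FiniteDimensional ℚ ↥(K ⊓ rootsField A (k + 1)) :=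
    Submodule.finiteDimensional_of_le (K := ℚ)
      (S₁ := (K ⊓ rootsField A (k + 1)).toSubalgebra.toSubmodule) (S₂ := K.toSubalgebra.toSubmodule)
      fun x hx => inf_le_left (a := K) hx
  have hle := inf_le_inf_left K (rootsField_mono hmL)
  have hK : Module.finrank ℚ ↥(K ⊓ rootsField A (k + 1)) ≤ Module.finrank ℚ K :=
    Submodule.finrank_mono (s := (K ⊓ rootsField A (k + 1)).toSubalgebra.toSubmodule)
      (t := K.toSubalgebra.toSubmodule) fun x hx => inf_le_left (a := K) hx
  have heq : K ⊓ rootsField A (Function.argmin d + 1) = K ⊓ rootsField A (k + 1) := by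
    refine IntermediateField.eq_of_le_of_finrank_le hle ?_
    change Module.finrank ℚ K - Module.finrank ℚ ↥(K ⊓ rootsField A (Function.argmin d + 1)) ≤
      Module.finrank ℚ K - Module.finrank ℚ ↥(K ⊓ rootsField A (k + 1)) at hmin
    omega
  rw [← heq]
  exact inf_le_right

/-- **The Galois image**: exponents congruent to one modulo the level are automorphisms. -/
theorem exists_aut_pow (K : IntermediateField ℚ A) {m : ℕ} (hm : 0 < m)
    (hlevel : ∀ L : ℕ, 0 < L → m ∣ L → K ⊓ rootsField A L ≤ rootsField A m) {N : ℕ} (hN : 0 < N)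
    {ω : A} (hω : IsPrimitiveRoot ω N) {a : ℕ} (ha : a.Coprime N)
    (ha1 : a ≡ 1 [MOD Nat.gcd N m]) : ∃ σ : A ≃ₐ[K] A, σ ω = ω ^ a := by
  classical
  set L := Nat.lcm N m
  have hL : 0 < L := Nat.lcm_pos hN hm
  haveI : NeZero (L : A) := ⟨Nat.cast_ne_zero.2 hL.ne'⟩
  haveI : NeZero L := ⟨hL.ne'⟩
  obtain ⟨η, hη⟩ := HasEnoughRootsOfUnity.exists_primitiveRoot A L
  obtain ⟨a', haN, ham⟩ := Nat.chineseRemainder' ha1
  have hcop : a'.Coprime L := by
    have h1 : a'.Coprime N := by rw [Nat.coprime_iff_gcd_eq_one] at ha ⊢; rw [haN.gcd_eq, ha]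
    have h2 : a'.Coprime m := by
      rw [Nat.coprime_iff_gcd_eq_one]; rw [ham.gcd_eq]; exact Nat.gcd_one_left m
    exact Nat.Coprime.coprime_dvd_right (Nat.lcm_dvd_mul N m) (h1.mul_right h2)
  have hη' := hη.pow_of_coprime a' hcop
  haveI : IsAlgClosure ℚ A := ⟨inferInstance, inferInstance⟩
  haveI : Normal ℚ A := IsAlgClosure.normal ℚ A
  obtain ⟨τ, hτ⟩ : ∃ τ : A ≃ₐ[ℚ] A, τ η = η ^ a' := by
    rw [← isConjRoot_iff_exists_algEquiv, isConjRoot_def,
      ← cyclotomic_eq_minpoly_rat hη' hL, ← cyclotomic_eq_minpoly_rat hη hL]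
  have hfix : ∀ x ∈ rootsField A m, τ x = x := fun x hx => by
    induction hx using IntermediateField.adjoin_induction with
    | mem x hx =>
      obtain ⟨j, -, rfl⟩ := hη.eq_pow_of_pow_eq_one (ξ := x) (by
        obtain ⟨k, hk⟩ := Nat.dvd_lcm_right N m
        rw [show L = m * k from hk, pow_mul, show x ^ m = 1 from hx, one_pow])
      rw [map_pow, hτ, ← pow_mul, mul_comm, pow_mul,
        pow_eq_pow_mod a' (show (η ^ j) ^ m = 1 from hx), ham, ← pow_eq_pow_mod 1
        (show (η ^ j) ^ m = 1 from hx), pow_one]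
    | algebraMap q => exact τ.commutes q
    | add x y _ _ hx hy => rw [map_add, hx, hy]
    | inv x _ hx => rw [map_inv₀, hx]
    | mul x y _ _ hx hy => rw [map_mul, hx, hy]
  haveI : Algebra.IsAlgebraic K A := Algebra.IsAlgebraic.tower_top (K := ℚ) K
  haveI : IsAlgClosure K A := ⟨inferInstance, inferInstance⟩
  haveI : Normal K A := IsAlgClosure.normal K A
  have hint : IsIntegral K η := (Algebra.IsAlgebraic.isAlgebraic η).isIntegral
  set p := (minpoly K η).map (algebraMap K A)
  have hroot : ∀ r ∈ p.roots, r ^ L = 1 := fun r hr => by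
    have hdvd : minpoly K η ∣ X ^ L - C 1 := minpoly.dvd K η (by simp [hη.pow_eq_one])
    have := (mem_roots'.1 hr).2
    have h0 := Polynomial.eval_eq_zero_of_dvd_of_eval_eq_zero
      (Polynomial.map_dvd (algebraMap K A) hdvd) this
    simpa [sub_eq_zero] using h0
  have hlift : p ∈ Polynomial.lifts (algebraMap (rootsField A L) A) := by
    rw [(IsAlgClosed.splits p).eq_prod_roots_of_monic ((minpoly.monic hint).map _)]
    refine Subsemiring.multiset_prod_mem _ _ fun q hq => ?_
    obtain ⟨r, hr, rfl⟩ := Multiset.mem_map.1 hq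
    refine ⟨X - C ⟨r, IntermediateField.subset_adjoin ℚ _ (hroot r hr)⟩, ?_⟩
    simp
  have hcoeff : ∀ k, τ (p.coeff k) = p.coeff k := fun k => by
    refine hfix _ (hlevel L hL (Nat.dvd_lcm_right N m) ⟨?_, ?_⟩)
    · rw [coeff_map]; exact ((minpoly K η).coeff k).2
    · obtain ⟨c, hc⟩ := (lifts_iff_coeff_lifts p).1 hlift k
      rw [← hc]; exact c.2
  have hev : aeval (η ^ a') (minpoly K η) = 0 := by
    have h0 : p.eval η = 0 := by rw [eval_map_algebraMap, minpoly.aeval]
    rw [← eval_map_algebraMap, ← hτ]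
    have := congrArg τ h0
    rw [map_zero] at this
    rw [← this, eval_eq_sum_range, eval_eq_sum_range, map_sum]
    exact sum_congr rfl fun k _ => by rw [map_mul, map_pow, hcoeff]
  obtain ⟨σ, hσ⟩ := isConjRoot_iff_exists_algEquiv.1
    ((isConjRoot_iff_aeval_eq_zero hint).2 hev).symm
  refine ⟨σ, ?_⟩
  obtain ⟨j, -, rfl⟩ := hη.eq_pow_of_pow_eq_one (ξ := ω) (by
    obtain ⟨k, hk⟩ := Nat.dvd_lcm_left N m
    rw [show L = N * k from hk, pow_mul, hω.pow_eq_one, one_pow])
  rw [map_pow, hσ, ← pow_mul, mul_comm, pow_mul, pow_eq_pow_mod a' hω.pow_eq_one, haN,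
    ← pow_eq_pow_mod a hω.pow_eq_one]

omit [IsAlgClosed A] [Algebra.IsAlgebraic ℚ A] in
/-- A polynomial of degree below a prime vanishing at its primitive roots has equal coefficients. -/
theorem coeff_eq_of_primitiveRoots {p : ℕ} (hp : p.Prime) {β : A} (hβ : IsPrimitiveRoot β p)
    (S : ℕ → A) (h : ∀ b ∈ Ico 1 p, ∑ r ∈ range p, S r * (β ^ b) ^ r = 0) {r r' : ℕ}
    (hr : r < p) (hr' : r' < p) : S r = S r' := by
  classical
  suffices key : ∀ r < p, S r = S (p - 1) by rw [key r hr, key r' hr']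
  intro r hr
  obtain ⟨p', rfl⟩ : ∃ p', p = p' + 1 := ⟨p - 1, by have := hp.pos; omega⟩
  rw [Nat.add_sub_cancel]
  rcases (Nat.lt_succ_iff.1 hr).lt_or_eq with hlt | rfl
  swap
  · rfl
  set P : A[X] := ∑ s ∈ range p', C (S s - S p') * X ^ s
  have hdeg : P.natDegree < #((Ico 1 (p' + 1)).image (β ^ ·)) := by
    rw [card_image_of_injOn fun i hi j hj e => hβ.pow_inj
      (mem_Ico.1 (mem_coe.1 hi)).2 (mem_Ico.1 (mem_coe.1 hj)).2 e, Nat.card_Ico, Nat.add_sub_cancel]
    refine lt_of_le_of_lt (natDegree_sum_le_of_forall_le _ _ fun i hi =>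
      (natDegree_C_mul_X_pow_le _ _).trans ?_) (show p' - 1 < p' by omega)
    have := mem_range.1 hi
    omega
  have h0 : P = 0 := eq_zero_of_natDegree_lt_card_of_eval_eq_zero' _ _ (fun x hx => by
    obtain ⟨b, hb, rfl⟩ := mem_image.1 hx
    have h1 : ∑ s ∈ range (p' + 1), S s * (β ^ b) ^ s = 0 := h b hb
    have h2 : ∑ s ∈ range (p' + 1), (β ^ b) ^ s = 0 := by
      refine IsPrimitiveRoot.geom_sum_eq_zero (hβ.pow_of_coprime b ?_) hp.one_lt
      exact (Nat.coprime_of_lt_prime (by have := (mem_Ico.1 hb).1; omega) (mem_Ico.1 hb).2 hp).symm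
    rw [sum_range_succ] at h1 h2
    simp only [P, eval_finsetSum, eval_mul, eval_C, eval_pow, eval_X, sub_mul, sum_sub_distrib,
      ← mul_sum]
    linear_combination h1 - S p' * h2) hdeg
  have := congrArg (fun q : A[X] => q.coeff r) h0
  simp only [P, finsetSum_coeff, coeff_C_mul, coeff_X_pow, coeff_zero] at this
  simpa [hlt, sub_eq_zero] using this

/-- **Mann's lemma over a number field**, uniform in the coefficients. -/
theorem exists_mann (K : IntermediateField ℚ A) [FiniteDimensional ℚ K] (k : ℕ) :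
    ∃ M : ℕ, 0 < M ∧ ∀ (ι : Type) (s : Finset ι) (c ζ : ι → A), s.card ≤ k → (∀ i, c i ∈ K) →
      (∀ i ∈ s, ∃ N : ℕ, 0 < N ∧ ζ i ^ N = 1) → ∑ i ∈ s, c i * ζ i = 0 →
      (∀ T ⊆ s, T.Nonempty → ∑ i ∈ T, c i * ζ i = 0 → T = s) →
      ∀ i ∈ s, ∀ j ∈ s, (ζ i / ζ j) ^ M = 1 := by
  classical
  obtain ⟨m, hm, hlevel⟩ := exists_level K
  refine ⟨m * primorial k, Nat.mul_pos hm (primorial_pos k),
    fun ι s c ζ hk hc hζ hsum hmin i₀ hi₀ j hj => ?_⟩
  choose! N₀ hN₀ hζN using hζ
  have hex : ∃ N, 0 < N ∧ ∀ i ∈ s, (ζ i / ζ j) ^ N = 1 := ⟨∏ i ∈ s, N₀ i,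
    prod_pos hN₀, fun i hi => by
    obtain ⟨a, ha⟩ := dvd_prod_of_mem N₀ hi
    obtain ⟨b, hb⟩ := dvd_prod_of_mem N₀ hj
    rw [div_pow]
    nth_rw 1 [ha]
    rw [hb, pow_mul, pow_mul, hζN i hi, hζN j hj, one_pow, one_pow, div_one]⟩
  obtain ⟨hN, hN1⟩ := Nat.find_spec hex
  set N := Nat.find hex
  suffices hdvd : N ∣ m * primorial k by
    obtain ⟨q, hq⟩ := hdvd
    rw [hq, pow_mul, hN1 i₀ hi₀, one_pow]
  haveI : NeZero N := ⟨hN.ne'⟩
  haveI : NeZero (N : A) := ⟨Nat.cast_ne_zero.2 hN.ne'⟩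
  obtain ⟨ω, hω⟩ := HasEnoughRootsOfUnity.exists_primitiveRoot A N
  have hζj : ζ j ≠ 0 := fun h => by
    have := hζN j hj
    rw [h, zero_pow (hN₀ j hj).ne'] at this
    exact zero_ne_one this
  choose! e he he' using fun i (hi : i ∈ s) => hω.eq_pow_of_pow_eq_one (hN1 i hi)
  have hej : e j = 0 := hω.pow_inj (he j hj) hN (by rw [he' j hj, pow_zero, div_self hζj])
  have key : ∀ T ⊆ s, ∑ i ∈ T, c i * ω ^ e i = (∑ i ∈ T, c i * ζ i) / ζ j := fun T hT => by
    rw [sum_div]
    exact sum_congr rfl fun i hi => by rw [he' i (hT hi), mul_div_assoc]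
  have hmin' : ∀ T ⊆ s, T.Nonempty → ∑ i ∈ T, c i * ω ^ e i = 0 → T = s := fun T hT hne h0 => by
    rw [key T hT, div_eq_zero_iff, or_iff_left hζj] at h0
    exact hmin T hT hne h0
  have h0 : ∑ i ∈ s, c i * ω ^ e i = 0 := by rw [key s subset_rfl, hsum, zero_div]
  have hfixK : ∀ (σ : A ≃ₐ[K] A) (i : ι), σ (c i) = c i := fun σ i => σ.commutes ⟨c i, hc i⟩
  -- no prime divides all exponents
  have hstuck : ∀ p q, p.Prime → N = p * q → (∀ i ∈ s, e i % p = e j % p) → False :=
    fun p q hp hq h => by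
    have hq0 : 0 < q := Nat.pos_of_mul_pos_left (hq ▸ hN)
    refine Nat.find_min hex (show q < N by rw [hq]; exact lt_mul_left hq0 hp.one_lt)
      ⟨hq0, fun i hi => ?_⟩
    rw [← he' i hi, ← pow_mul, hω.pow_eq_one_iff_dvd, hq]
    exact Nat.mul_dvd_mul_right (Nat.dvd_of_mod_eq_zero (by rw [h i hi, hej, Nat.zero_mod])) q
  rw [← Nat.factorization_prime_le_iff_dvd hN.ne' (Nat.mul_pos hm (primorial_pos k)).ne']
  intro p hp
  rw [← hp.pow_dvd_iff_le_factorization (Nat.mul_pos hm (primorial_pos k)).ne']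
  set v := N.factorization p
  by_contra hnd
  have hv : p ^ v ∣ N := Nat.ordProj_dvd N p
  have hv0 : v ≠ 0 := fun h => hnd (by rw [h, pow_zero]; exact one_dvd _)
  obtain ⟨q, hq⟩ : p ∣ N := (dvd_pow_self p hv0).trans hv
  have hpm : ¬p ^ v ∣ m := fun h => hnd (h.mul_right _)
  by_cases h2 : 2 ≤ v
  · -- the twist by `1 + N / p` fixes the roots of order `N / p`
    have hpq : p ∣ q := by
      have h : p ^ 2 ∣ N := (pow_dvd_pow p h2).trans hv
      rw [hq, pow_two] at h
      exact Nat.dvd_of_mul_dvd_mul_left hp.pos h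
    have hcop : (1 + q).Coprime N := by
      refine Nat.coprime_of_dvd fun r hr h1 h2' => ?_
      rw [hq] at h2'
      have hrq : r ∣ q := by
        rcases hr.dvd_mul.1 h2' with h | h
        · exact ((Nat.prime_dvd_prime_iff_eq hr hp).1 h) ▸ hpq
        · exact h
      exact hr.one_lt.ne' (Nat.dvd_one.1 ((Nat.dvd_add_left hrq).1 h1))
    have hg : Nat.gcd N m ∣ q := by
      obtain ⟨t, ht⟩ := Nat.gcd_dvd_left N m
      have hpt : p ∣ t := by
        by_contra h
        refine hpm (((((hp.coprime_iff_not_dvd.2 h).pow_left v)).dvd_of_dvd_mul_right ?_).trans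
          (Nat.gcd_dvd_right N m))
        rwa [← ht]
      obtain ⟨t', ht'⟩ := hpt
      refine ⟨t', Nat.eq_of_mul_eq_mul_left hp.pos ?_⟩
      rw [← hq, mul_left_comm, ← ht', ← ht]
    obtain ⟨σ, hσ⟩ := exists_aut_pow K hm hlevel hN hω hcop (by
      have h := ((Nat.modEq_zero_iff_dvd).2 hg).add_left 1
      simpa using h)
    have hz := eigen_constant (σ : A →+* A) s c (fun i => ω ^ e i) (fun i => (ω ^ q) ^ e i)
      (fun i _ => hfixK σ i) (fun i _ => ?_) (fun i _ => ?_) h0 hmin'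
    · refine hstuck p q hp hq fun i hi => ?_
      have hβ : IsPrimitiveRoot (ω ^ q) p := hω.pow hN (by rw [hq, mul_comm])
      refine hβ.pow_inj (Nat.mod_lt _ hp.pos) (Nat.mod_lt _ hp.pos) ?_
      rw [← pow_eq_pow_mod _ hβ.pow_eq_one, ← pow_eq_pow_mod _ hβ.pow_eq_one]
      exact hz i hi j hj
    · show σ ((ω ^ q) ^ e i) = _
      rw [map_pow, map_pow, hσ, pow_right_comm ω (1 + q) q,
        pow_eq_pow_mod (1 + q) (show (ω ^ q) ^ p = 1 by rw [← pow_mul, mul_comm, ← hq,
          hω.pow_eq_one]), Nat.add_mod, Nat.mod_eq_zero_of_dvd hpq, add_zero, Nat.mod_mod,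
        Nat.one_mod_eq_one.2 hp.one_lt.ne', pow_one]
    · show σ (ω ^ e i) = _
      rw [map_pow, hσ, pow_add, pow_one, mul_pow, mul_comm]
  · -- a large prime dividing `N` once
    rw [show v = 1 by omega, pow_one] at hpm hnd
    have hkp : k < p := not_le.1 fun h => hnd (dvd_mul_of_dvd_right
      (hp.dvd_primorial_iff.2 h) m)
    have hpq : ¬p ∣ q := fun h => by
      have : p ^ 2 ∣ N := by rw [hq, pow_two]; exact Nat.mul_dvd_mul_left p h
      have := (hp.pow_dvd_iff_le_factorization hN.ne').1 this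
      omega
    have hcpq : q.Coprime p := (hp.coprime_iff_not_dvd.2 hpq).symm
    obtain ⟨x, hxp, hxq⟩ := Nat.chineseRemainder hcpq.symm 0 1
    obtain ⟨y, hyp, hyq⟩ := Nat.chineseRemainder hcpq.symm 1 0
    have hsplit : ∀ a b : ℕ, a ≡ b [MOD p] → a ≡ 1 [MOD q] → ω ^ a = ω ^ x * (ω ^ y) ^ b :=
      fun a b h1 h2 => by
      rw [← pow_mul, ← pow_add, pow_eq_pow_mod a hω.pow_eq_one,
        pow_eq_pow_mod (x + y * b) hω.pow_eq_one]
      congr 1
      rw [hq]
      refine (Nat.modEq_and_modEq_iff_modEq_mul hcpq.symm).1 ⟨h1.trans ?_, h2.trans ?_⟩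
      · simpa using (hxp.add (hyp.mul_right b)).symm
      · simpa using (hxq.add (hyq.mul_right b)).symm
    set β := ω ^ y
    have hβp : β ^ p = 1 := by
      obtain ⟨t, ht⟩ := Nat.modEq_zero_iff_dvd.1 hyq
      rw [← pow_mul, hω.pow_eq_one_iff_dvd, hq, ht]
      exact ⟨t, by ring⟩
    have hβ : IsPrimitiveRoot β p := by
      rcases (Nat.dvd_prime hp).1 (orderOf_dvd_of_pow_eq_one hβp) with h | h
      · rw [orderOf_eq_one_iff, hω.pow_eq_one_iff_dvd, hq] at h
        have := Nat.modEq_zero_iff_dvd.2 ((Dvd.intro q rfl).trans h)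
        exact absurd (Nat.modEq_zero_iff_dvd.1 ((hyp.symm.trans this))) hp.not_dvd_one
      · exact h ▸ IsPrimitiveRoot.orderOf β
    have hrel : ∀ b ∈ Ico 1 p,
        ∑ i ∈ s, c i * (ω ^ x) ^ e i * (β ^ b) ^ (e i % p) = 0 := fun b hb => by
      obtain ⟨a, hap, haq⟩ := Nat.chineseRemainder hcpq.symm b 1
      have hcop : a.Coprime N := by
        rw [hq]
        refine Nat.Coprime.mul_right ?_ ?_
        · rw [Nat.coprime_iff_gcd_eq_one, hap.gcd_eq, ← Nat.coprime_iff_gcd_eq_one]
          exact (Nat.coprime_of_lt_prime (by have := (mem_Ico.1 hb).1; omega) (mem_Ico.1 hb).2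
            hp).symm
        · rw [Nat.coprime_iff_gcd_eq_one, haq.gcd_eq, Nat.gcd_one_left]
      have hg : Nat.gcd N m ∣ q := by
        refine (Nat.Coprime.dvd_of_dvd_mul_left ?_ (show Nat.gcd N m ∣ p * q from
          (Nat.gcd_dvd_left N m).trans hq.dvd))
        exact ((hp.coprime_iff_not_dvd.2 hpm).coprime_dvd_right (Nat.gcd_dvd_right N m)).symm
      obtain ⟨σ, hσ⟩ := exists_aut_pow K hm hlevel hN hω hcop (haq.of_dvd hg)
      rw [← map_zero (σ : A →+* A), ← h0, map_sum]
      refine sum_congr rfl fun i _ => ?_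
      show _ = σ (c i * ω ^ e i)
      rw [map_mul, hfixK, map_pow, hσ, hsplit a b hap haq, mul_pow, mul_assoc,
        ← pow_eq_pow_mod _ (show (β ^ b) ^ p = 1 by
          rw [← pow_mul, mul_comm, pow_mul, hβp, one_pow])]
    set S : ℕ → A := fun r => ∑ i ∈ s with e i % p = r, c i * (ω ^ x) ^ e i
    have hS : ∀ b ∈ Ico 1 p, ∑ r ∈ range p, S r * (β ^ b) ^ r = 0 := fun b hb => by
      rw [← hrel b hb, ← sum_fiberwise_of_maps_to (g := fun i => e i % p) (t := range p)
        fun i _ => mem_range.2 (Nat.mod_lt _ hp.pos)]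
      refine sum_congr rfl fun r _ => ?_
      rw [sum_mul]
      exact sum_congr rfl fun i hi => by rw [(mem_filter.1 hi).2]
    obtain ⟨r₀, hr₀, hr₀'⟩ := exists_mem_notMem_of_card_lt_card
      (show #(s.image fun i => e i % p) < #(range p) by
        rw [card_range]; exact (card_image_le.trans hk).trans_lt hkp)
    have hS0 : ∀ r < p, S r = 0 := fun r hr => by
      rw [coeff_eq_of_primitiveRoots hp hβ S hS hr (mem_range.1 hr₀)]
      simp only [S]
      rw [filter_eq_empty_iff.2 fun i hi h => hr₀' (mem_image.2 ⟨i, hi, h⟩), sum_empty]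
    refine hstuck p q hp hq fun i hi => ?_
    have hr : e j % p < p := Nat.mod_lt _ hp.pos
    have hsub : s.filter (fun i => e i % p = e j % p) = s := by
      refine hmin' _ (filter_subset _ _) ⟨j, mem_filter.2 ⟨hj, rfl⟩⟩ ?_
      have hxy : ∀ i ∈ s.filter (fun i => e i % p = e j % p),
          c i * ω ^ e i = c i * (ω ^ x) ^ e i * β ^ (e j % p) := fun i hi => by
        rw [← (mem_filter.1 hi).2, ← pow_eq_pow_mod _ hβp, mul_assoc, ← mul_pow]
        congr 2
        simpa using hsplit 1 1 rfl rfl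
      rw [sum_congr rfl hxy, ← sum_mul]
      have := hS0 _ hr
      simp only [S] at this
      rw [this, zero_mul]
    exact (mem_filter.1 (hsub.ge hi)).2

end FA.UnitEquationFields

end
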