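import Fermat.Agent.UnitEquationFields.Reps
import Fermat.Agent.UnitEquationFields.Cyclotomic
import Mathlib.FieldTheory.Galois.Infinite
import Mathlib.NumberTheory.NumberField.Units.DirichletTheorem
import Mathlib.RingTheory.DedekindDomain.SelmerGroup

/-!
# The unit equation in division groups of algebraic numbers

A nondegenerate solution consists of radicals over a number field `K` fixed by the automorphisms
that fix all roots of unity; by the lemma of Sah they are roots of unity times elements of one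
finitely generated group, and Mann's lemma bounds these roots of unity.
-/

set_option autoImplicit false

noncomputable section

open Finset IsDedekindDomain NumberField

namespace FA.UnitEquationFields

/-- **The `S`-units** are finitely generated. -/
theorem fg_unit {K : Type*} [Field K] [NumberField K] (S : Finset (HeightOneSpectrum (𝓞 K))) :
    ((S : Set (HeightOneSpectrum (𝓞 K))).unit K).FG := by
  classical
  rw [← fg_toZMod]
  set f : Additive Kˣ →ₗ[ℤ] (S → ℤ) := LinearMap.pi fun v =>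
    (MonoidHom.toAdditiveLeft (v.1.valuationOfNeZero (K := K))).toIntLinearMap
  refine Submodule.fg_of_fg_map_of_fg_inf_ker f (IsNoetherian.noetherian _) ?_
  set g : Additive (𝓞 K)ˣ →ₗ[ℤ] Additive Kˣ :=
    (MonoidHom.toAdditive (Units.map (algebraMap (𝓞 K) K : 𝓞 K →* K))).toIntLinearMap
  refine ((Module.Finite.fg_top (R := ℤ) (M := Additive (𝓞 K)ˣ)).map g).of_le ?_
  rintro x ⟨hx, hker⟩
  have hval : ∀ v : HeightOneSpectrum (𝓞 K), v.valuation K ((x.toMul : Kˣ) : K) = 1 := fun v => by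
    by_cases hv : v ∈ S
    · have h : Multiplicative.toAdd (v.valuationOfNeZero x.toMul) = 0 := congrFun hker ⟨v, hv⟩
      rw [← HeightOneSpectrum.valuationOfNeZero_eq, toAdd_eq_zero.1 h, WithZero.coe_one]
    · exact (hx : x.toMul ∈ (S : Set (HeightOneSpectrum (𝓞 K))).unit K) v hv
  obtain ⟨y, hy⟩ := HeightOneSpectrum.mem_integers_of_valuation_le_one K _ fun v => (hval v).le
  obtain ⟨z, hz⟩ := HeightOneSpectrum.mem_integers_of_valuation_le_one K
    ((x.toMul⁻¹ : Kˣ) : K) fun v => by rw [Units.val_inv_eq_inv_val, map_inv₀, hval v, inv_one]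
  refine ⟨Additive.ofMul (Units.mkOfMulEqOne y z ?_), trivial, ?_⟩
  · apply RingOfIntegers.coe_injective
    rw [map_mul, hy, hz, map_one, Units.mul_inv]
  · exact congrArg Additive.ofMul (Units.ext hy)

/-- A number field has a common exponent for its roots of unity. -/
theorem exists_rootsOfUnity_exponent (K : Type*) [Field K] [NumberField K] :
    ∃ M : ℕ, 0 < M ∧ ∀ (x : K) (N : ℕ), 0 < N → x ^ N = 1 → x ^ M = 1 := by
  refine ⟨Units.torsionOrder K, Units.torsionOrder_pos K, fun x N hN hx => ?_⟩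
  have hint : IsIntegral ℤ x := IsIntegral.of_pow hN (by rw [hx]; exact isIntegral_one)
  set u : (𝓞 K)ˣ := Units.ofPowEqOne ⟨x, hint⟩ N (RingOfIntegers.ext hx) hN.ne'
  have hu : u ∈ Units.torsion K :=
    (CommGroup.mem_torsion _).2 (isOfFinOrder_iff_pow_eq_one.2 ⟨N, hN,
      Units.pow_ofPowEqOne _ _⟩)
  have h := congrArg (fun w : Units.torsion K => ((w.1 : (𝓞 K)) : K))
    (pow_card_eq_one' (x := (⟨u, hu⟩ : Units.torsion K)))
  simp only [SubmonoidClass.coe_pow, Units.val_pow_eq_pow_val, OneMemClass.coe_one, Units.val_one,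
    map_pow, map_one] at h
  exact h

variable {A : Type*} [Field A] [CharZero A] [IsAlgClosed A] [Algebra.IsAlgebraic ℚ A]

omit [IsAlgClosed A] [Algebra.IsAlgebraic ℚ A] in
/-- Two automorphisms act on roots of unity by commuting exponents. -/
theorem commute_on_roots {K : IntermediateField ℚ A} (σ τ : A ≃ₐ[K] A) {ζ : A} {N : ℕ}
    (hN : 0 < N) (hζ : ζ ^ N = 1) : σ (τ ζ) = τ (σ ζ) := by
  haveI : NeZero N := ⟨hN.ne'⟩
  obtain ⟨k, hk⟩ : ∃ k, k = orderOf ζ := ⟨_, rfl⟩
  have hp : IsPrimitiveRoot ζ k := hk ▸ IsPrimitiveRoot.orderOf ζ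
  haveI : NeZero k := ⟨fun h => by
    have := orderOf_dvd_of_pow_eq_one hζ
    rw [← hk, h, zero_dvd_iff] at this
    exact hN.ne' this⟩
  obtain ⟨a, -, ha⟩ := hp.eq_pow_of_pow_eq_one (ξ := σ ζ) (by
    rw [← map_pow, hp.pow_eq_one, map_one])
  obtain ⟨b, -, hb⟩ := hp.eq_pow_of_pow_eq_one (ξ := τ ζ) (by
    rw [← map_pow, hp.pow_eq_one, map_one])
  rw [← ha, ← hb, map_pow, map_pow, ← ha, ← hb, ← pow_mul, ← pow_mul, mul_comm]

/-- An element fixed by all automorphisms over `K` lies in `K`. -/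
theorem mem_of_fixed (K : IntermediateField ℚ A) {x : A} (h : ∀ σ : A ≃ₐ[K] A, σ x = x) :
    x ∈ K := by
  haveI : Algebra.IsAlgebraic K A := Algebra.IsAlgebraic.tower_top (K := ℚ) K
  haveI : IsAlgClosure K A := ⟨inferInstance, inferInstance⟩
  haveI : CharZero K := charZero_of_injective_ringHom (algebraMap ℚ K).injective
  haveI : IsGalois K A := IsAlgClosure.isGalois K A
  obtain ⟨y, rfl⟩ := (InfiniteGalois.mem_range_algebraMap_iff_fixed x).2 h
  exact y.2

/-- **The lemma of Sah**: a radical in the cyclotomic closure of `K` is a radical of fixed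
exponent, up to a root of unity. -/
theorem exists_pow_div_mem (K : IntermediateField ℚ A) {M : ℕ}
    (hM : ∀ (x : A) (N : ℕ), x ∈ K → 0 < N → x ^ N = 1 → x ^ M = 1) {x : A} {m : ℕ} (hm : 0 < m)
    (hx0 : x ≠ 0) (hx : x ^ m ∈ K)
    (hfix : ∀ σ : A ≃ₐ[K] A, (∀ (ζ : A) (N : ℕ), 0 < N → ζ ^ N = 1 → σ ζ = ζ) → σ x = x) :
    ∃ ζ : A, ζ ^ m = 1 ∧ x ^ M / ζ ∈ K := by
  haveI : NeZero m := ⟨hm.ne'⟩
  haveI : NeZero (m : A) := ⟨Nat.cast_ne_zero.2 hm.ne'⟩
  obtain ⟨ω, hω⟩ := HasEnoughRootsOfUnity.exists_primitiveRoot A m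
  have hω0 : ω ≠ 0 := hω.ne_zero hm.ne'
  have he : ∀ σ : A ≃ₐ[K] A, ∃ e : ℕ, σ x = x * ω ^ e := fun σ => by
    obtain ⟨e, -, he⟩ := hω.eq_pow_of_pow_eq_one (ξ := σ x / x) (by
      rw [div_pow, ← map_pow, show σ (x ^ m) = x ^ m from σ.commutes ⟨x ^ m, hx⟩]
      exact div_self (pow_ne_zero _ hx0))
    exact ⟨e, by rw [he, mul_div_cancel₀ _ hx0]⟩
  have hc : ∀ σ : A ≃ₐ[K] A, ∃ c : ℕ, σ ω = ω ^ c := fun σ => by
    obtain ⟨c, -, hc⟩ := hω.eq_pow_of_pow_eq_one (ξ := σ ω) (by
      rw [← map_pow, hω.pow_eq_one, map_one])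
    exact ⟨c, hc.symm⟩
  choose e he using he
  choose χ hχ using hc
  have hcomm : ∀ σ τ : A ≃ₐ[K] A, σ (τ x) = τ (σ x) := fun σ τ => by
    have h := hfix (σ.trans τ |>.trans ((τ.trans σ).symm)) fun ζ N hN hζ => by
      show (τ.trans σ).symm (τ (σ ζ)) = ζ
      rw [AlgEquiv.symm_apply_eq]
      exact (commute_on_roots σ τ hN hζ).symm
    have h' : τ (σ x) = (τ.trans σ) x := (AlgEquiv.symm_apply_eq _).1 h
    exact h'.symm
  have hrel : ∀ σ τ : A ≃ₐ[K] A,
      (m : ℤ) ∣ (e τ : ℤ) * ((χ σ : ℤ) - 1) - (e σ : ℤ) * ((χ τ : ℤ) - 1) := fun σ τ => by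
    have h := hcomm σ τ
    rw [he τ, he σ, map_mul, map_mul, map_pow, map_pow, he σ, he τ, hχ, hχ, mul_assoc, mul_assoc,
      mul_right_inj' hx0, ← pow_mul, ← pow_mul, ← pow_add, ← pow_add] at h
    have := (zpow_natCast ω _).trans (h.trans (zpow_natCast ω _).symm)
    rw [← sub_eq_zero] at *
    have h1 : ω ^ ((((e σ + χ σ * e τ : ℕ) : ℤ)) - ((e τ + χ τ * e σ : ℕ) : ℤ)) = 1 := by
      rw [zpow_sub₀ hω0, div_eq_one_iff_eq (zpow_ne_zero _ hω0), zpow_natCast, zpow_natCast]
      exact sub_eq_zero.1 h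
    have := (hω.zpow_eq_one_iff_dvd _).1 h1
    push_cast at this
    convert this using 1
    ring
  -- the exponents `k` for which `x ^ k` is fixed up to a root of unity
  let J : AddSubgroup ℤ :=
    { carrier := {k | ∃ c : ℤ, ∀ τ : A ≃ₐ[K] A, (m : ℤ) ∣ k * e τ - c * ((χ τ : ℤ) - 1)}
      zero_mem' := ⟨0, fun τ => by simp⟩
      add_mem' := fun {k l} ⟨c, hc⟩ ⟨d, hd⟩ => ⟨c + d, fun τ => by
        rw [show (k + l) * (e τ : ℤ) - (c + d) * ((χ τ : ℤ) - 1) = k * e τ - c * ((χ τ : ℤ) - 1) +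
          (l * e τ - d * ((χ τ : ℤ) - 1)) by ring]
        exact dvd_add (hc τ) (hd τ)⟩
      neg_mem' := fun {k} ⟨c, hc⟩ => ⟨-c, fun τ => by
        rw [show -k * (e τ : ℤ) - -c * ((χ τ : ℤ) - 1) = -(k * e τ - c * ((χ τ : ℤ) - 1)) by ring]
        exact (hc τ).neg_right⟩ }
  obtain ⟨d, hd⟩ := Int.subgroup_cyclic J
  have hdvd : ∀ k, k ∈ J ↔ d ∣ k := fun k => by
    rw [hd, AddSubgroup.mem_closure_singleton]
    exact ⟨fun ⟨r, hr⟩ => ⟨r, by rw [← hr, smul_eq_mul, mul_comm]⟩,
      fun ⟨r, hr⟩ => ⟨r, by rw [hr, smul_eq_mul, mul_comm]⟩⟩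
  obtain ⟨t, ht⟩ : d ∣ m := (hdvd _).1 ⟨0, fun τ => by simp⟩
  have hroot : ω ^ t ∈ K := mem_of_fixed K fun σ => by
    have hσ : d ∣ (χ σ : ℤ) - 1 := (hdvd _).1 ⟨e σ, fun τ => by
      convert hrel σ τ using 1; ring⟩
    obtain ⟨r, hr⟩ := hσ
    rw [map_zpow₀, hχ, ← zpow_natCast, ← zpow_mul,
      show (χ σ : ℤ) * t = t + m * r by rw [ht]; linear_combination t * hr, zpow_add₀ hω0,
      zpow_mul, zpow_natCast, hω.pow_eq_one, one_zpow, mul_one]
  have hd0 : d ≠ 0 := fun h => by simp [h] at ht; omega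
  have hM' : (ω ^ t) ^ M = 1 := hM _ d.natAbs hroot (Int.natAbs_pos.2 hd0) (by
    rw [← zpow_natCast, ← zpow_mul]
    refine (hω.zpow_eq_one_iff_dvd _).2 ?_
    rw [ht, mul_comm]
    exact mul_dvd_mul_left t (Int.dvd_natAbs.2 dvd_rfl))
  obtain ⟨c, hc⟩ : (M : ℤ) ∈ J := by
    rw [hdvd]
    rw [← zpow_natCast, ← zpow_mul, hω.zpow_eq_one_iff_dvd, ht, mul_comm t] at hM'
    refine (Int.mul_dvd_mul_iff_right ?_).1 hM'
    rintro rfl
    simp at ht
    omega
  refine ⟨ω ^ c, by rw [← zpow_natCast, ← zpow_mul, hω.zpow_eq_one_iff_dvd]; exact dvd_mul_left _ _,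
    mem_of_fixed K fun τ => ?_⟩
  rw [map_div₀, map_pow, he, map_zpow₀, hχ, mul_pow, mul_div_assoc, div_eq_mul_inv (x ^ M)]
  congr 1
  rw [← zpow_natCast ω (χ τ), ← zpow_natCast (ω ^ e τ) M, ← zpow_natCast ω (e τ), ← zpow_mul,
    ← zpow_mul, ← zpow_sub₀ hω0, ← zpow_neg]
  obtain ⟨r, hr⟩ := hc τ
  rw [show (e τ : ℤ) * M - (χ τ : ℤ) * c = -c + m * r by linear_combination hr, zpow_add₀ hω0,
    zpow_mul, zpow_natCast, hω.pow_eq_one, one_zpow, mul_one]

/-- **Division groups in an algebraically closed field of algebraic numbers.** -/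
theorem unitEqFinite_hull_of_isAlgClosed {Γ₀ : Subgroup Aˣ} (hΓ : Γ₀.FG) :
    UnitEqFinite (divisionHull Γ₀) := by
  classical
  intro n a s ha
  obtain ⟨G, hG⟩ := hΓ
  have hfd : ∀ S : Finset A, FiniteDimensional ℚ (IntermediateField.adjoin ℚ (S : Set A)) :=
    fun S => IntermediateField.finiteDimensional_adjoin fun x _ =>
      (Algebra.IsAlgebraic.isAlgebraic x).isIntegral
  set K := IntermediateField.adjoin ℚ (↑(G.image (fun g : Aˣ => (g : A)) ∪ univ.image a) : Set A)
  haveI : FiniteDimensional ℚ K := hfd _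
  haveI : NumberField K := ⟨⟩
  have hgK : ∀ g ∈ Γ₀, (g : A) ∈ K := fun g hg => by
    rw [← hG] at hg
    induction hg using Subgroup.closure_induction with
    | mem g hg =>
      exact IntermediateField.subset_adjoin ℚ _
        (mem_coe.2 (mem_union_left _ (mem_image_of_mem _ hg)))
    | one => simp
    | mul x y _ _ hx hy => exact mul_mem hx hy
    | inv x _ hx => rw [Units.val_inv_eq_inv_val]; exact inv_mem hx
  have haK : ∀ i, a i ∈ K := fun i =>
    IntermediateField.subset_adjoin ℚ _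
      (mem_coe.2 (mem_union_right _ (mem_image_of_mem _ (mem_univ i))))
  -- the elements of the hull inside `K`
  set f : Kˣ →* Aˣ := constUnits K A
  have hfinj : Function.Injective f := Units.map_injective (algebraMap K A).injective
  obtain ⟨S, hS⟩ := FA.Subspace.exists_le_unit (fg_comap hfinj ⟨G, hG⟩ : (Γ₀.comap f).FG)
  obtain ⟨GS, hGS⟩ := fg_unit S
  obtain ⟨M, hM0, hM⟩ := exists_rootsOfUnity_exponent K
  have hM' : ∀ (x : A) (N : ℕ), x ∈ K → 0 < N → x ^ N = 1 → x ^ M = 1 := fun x N hx hN h =>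
    congrArg Subtype.val (hM ⟨x, hx⟩ N hN (Subtype.ext h))
  -- their roots of degree `M`
  have hroot : ∀ g : Kˣ, ∃ r : Aˣ, r ^ M = f g := fun g => by
    obtain ⟨r, hr⟩ := IsAlgClosed.exists_pow_nat_eq (f g : A) hM0
    exact ⟨Units.mk0 r fun h => (f g).ne_zero (by rw [← hr, h, zero_pow hM0.ne']), Units.ext hr⟩
  choose root hroot using hroot
  set Γ₁ := Subgroup.closure ((GS.image root : Finset Aˣ) : Set Aˣ)
  set K₁ := IntermediateField.adjoin ℚ
    (↑((GS.image fun g => (root g : A)) ∪ univ.image a) : Set A)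
  haveI : FiniteDimensional ℚ K₁ := hfd _
  have hK₁ : ∀ g ∈ Γ₁, (g : A) ∈ K₁ := fun g hg => by
    induction hg using Subgroup.closure_induction with
    | mem g hg =>
      obtain ⟨b, hb, rfl⟩ := mem_image.1 hg
      exact IntermediateField.subset_adjoin ℚ _
        (mem_coe.2 (mem_union_left _ (mem_image_of_mem _ hb)))
    | one => simp
    | mul x y _ _ hx hy => exact mul_mem hx hy
    | inv x _ hx => rw [Units.val_inv_eq_inv_val]; exact inv_mem hx
  obtain ⟨M₁, hM₁, hmann⟩ := exists_mann K₁ (n + 1)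
  haveI : NeZero M₁ := ⟨hM₁.ne'⟩
  set Γ₂ := Γ₁ ⊔ rootsOfUnity M₁ A
  have hμ : (rootsOfUnity M₁ A).FG := by
    haveI : Finite (rootsOfUnity M₁ A) := inferInstance
    have hfin : ((rootsOfUnity M₁ A : Subgroup Aˣ) : Set Aˣ).Finite := Set.finite_coe_iff.1 this
    exact ⟨hfin.toFinset, by rw [hfin.coe_toFinset, Subgroup.closure_eq]⟩
  have hfin := unitEqFinite_of_isAlgebraic (Γ := Γ₂) (Subgroup.FG.sup ⟨_, rfl⟩ hμ)
  refine (hfin n a s ha).subset fun u hu => ⟨fun i => ?_, hu.2⟩
  by_cases his : i ∈ s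
  swap
  · rw [hu.2.1 i his]; exact one_mem _
  -- the terms, with `-1` for the right hand side
  set s' := insertNone s
  set c : Option (Fin n) → A := fun o => o.elim (-1) a
  set u' : Option (Fin n) → Aˣ := fun o => o.elim 1 u
  have hmem : ∀ o, u' o ∈ divisionHull Γ₀
    | none => one_mem _
    | some i => hu.1 i
  have h0 : ∑ o ∈ s', c o * (u' o : A) = 0 := by
    rw [sum_insertNone]
    simp [c, u', hu.2.2.1]
  have hmin : ∀ T ⊆ s', T.Nonempty → ∑ o ∈ T, c o * (u' o : A) = 0 → T = s' := by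
    intro T hT hne hT0
    have hT' : eraseNone T ⊆ s := fun i hi => by simpa [s'] using hT (mem_eraseNone.1 hi)
    by_cases hn : none ∈ T
    · by_contra hTs
      refine hu.2.2.2 (s \ eraseNone T) sdiff_subset ?_ ?_
      · rw [sdiff_nonempty]
        refine fun h => hTs (hT.antisymm fun o ho => ?_)
        cases o with
        | none => exact hn
        | some i => exact mem_eraseNone.1 (h (by simpa [s'] using ho))
      · have hins : T = insertNone (eraseNone T) := by
          rw [insertNone_eraseNone, insert_eq_self.2 hn]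
        rw [hins, sum_insertNone] at hT0
        simp only [c, u', Option.elim, Units.val_one, mul_one] at hT0
        rw [sum_sdiff_eq_sub hT', hu.2.2.1, eq_neg_of_add_eq_zero_right hT0, neg_neg, sub_self]
    · exfalso
      have hmap : T = (eraseNone T).map Function.Embedding.some := by
        rw [map_some_eraseNone, erase_eq_self.2 hn]
      rw [hmap] at hne hT0
      rw [sum_map] at hT0
      exact hu.2.2.2 _ hT' (map_nonempty.1 hne) hT0
  have hcK : ∀ o, c o ∈ K
    | none => neg_mem (one_mem K)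
    | some i => haK i
  -- radicals fixed by the automorphisms fixing the roots of unity
  have hfixed : ∀ o ∈ s', ∀ σ : A ≃ₐ[K] A,
      (∀ (ζ : A) (N : ℕ), 0 < N → ζ ^ N = 1 → σ ζ = ζ) → σ (u' o : A) = u' o := by
    intro o ho σ hσ
    have hz : ∀ o, σ ((σ (u' o : A)) / u' o) = σ (u' o : A) / u' o := fun o => by
      obtain ⟨m, hm, hx⟩ := hmem o
      refine hσ _ m (Nat.pos_of_ne_zero hm) ?_
      rw [div_pow, ← map_pow, ← Units.val_pow_eq_pow_val,
        show σ ((u' o ^ m : Aˣ) : A) = ((u' o ^ m : Aˣ) : A) from σ.commutes ⟨_, hgK _ hx⟩]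
      exact div_self (u' o ^ m).ne_zero
    have h := eigen_constant (σ : A →+* A) s' c (fun o => (u' o : A))
      (fun o => σ (u' o : A) / u' o) (fun o _ => σ.commutes ⟨c o, hcK o⟩) (fun o _ => hz o)
      (fun o _ => (div_mul_cancel₀ _ (u' o).ne_zero).symm) h0 hmin o ho none
      (by simp [s'])
    simp only [u', Option.elim, Units.val_one, map_one, div_one] at h
    exact (div_eq_one_iff_eq (Units.ne_zero _)).1 h
  -- roots of unity times elements of the roots
  have hdec : ∀ o ∈ s', ∃ g ∈ Γ₁, ∃ N : ℕ, 0 < N ∧ ((u' o / g : Aˣ) : A) ^ N = 1 := by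
    intro o ho
    obtain ⟨m, hm, hx⟩ := hmem o
    obtain ⟨ζ, hζ, hy⟩ := exists_pow_div_mem K hM' (Nat.pos_of_ne_zero hm) (u' o).ne_zero
      (by rw [← Units.val_pow_eq_pow_val]; exact hgK _ hx) (hfixed o ho)
    have hζ0 : ζ ≠ 0 := fun h => by rw [h, zero_pow hm] at hζ; exact zero_ne_one hζ
    set y : Kˣ := Units.mk0 ⟨(u' o : A) ^ M / ζ, hy⟩
      fun h => div_ne_zero (pow_ne_zero _ (u' o).ne_zero) hζ0 (congrArg Subtype.val h)
    have hyS : y ∈ (S : Set (HeightOneSpectrum (𝓞 K))).unit K := fun v hv => by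
      have hym : y ^ m ∈ Γ₀.comap f := by
        have hfy : f (y ^ m) = (u' o ^ m) ^ M := Units.ext (by
          show (((u' o : A) ^ M / ζ) ^ m : A) = ((u' o : A) ^ m) ^ M
          rw [div_pow, hζ, div_one, pow_right_comm])
        rw [Subgroup.mem_comap, hfy]
        exact pow_mem hx M
      have h1 : v.valuation K ((y ^ m : Kˣ) : K) = 1 := hS hym v hv
      rw [Units.val_pow_eq_pow_val, map_pow] at h1
      exact (pow_eq_one_iff.1 h1).resolve_right hm
    have hroots : ∀ b ∈ Subgroup.closure (GS : Set Kˣ), ∃ g ∈ Γ₁, g ^ M = f b := fun b hb => by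
      induction hb using Subgroup.closure_induction with
      | mem b hb =>
        exact ⟨root b, Subgroup.subset_closure (mem_coe.2 (mem_image_of_mem _ hb)), hroot b⟩
      | one => exact ⟨1, one_mem _, by simp⟩
      | mul b b' _ _ hb hb' =>
        obtain ⟨g, hg, h⟩ := hb
        obtain ⟨g', hg', h'⟩ := hb'
        exact ⟨g * g', mul_mem hg hg', by rw [mul_pow, h, h', map_mul]⟩
      | inv b _ hb =>
        obtain ⟨g, hg, h⟩ := hb
        exact ⟨g⁻¹, inv_mem hg, by rw [inv_pow, h, map_inv]⟩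
    obtain ⟨g, hg, hgy⟩ := hroots y (hGS ▸ hyS)
    refine ⟨g, hg, M * m, Nat.mul_pos hM0 (Nat.pos_of_ne_zero hm), ?_⟩
    have hgy' : (g : A) ^ M = (u' o : A) ^ M / ζ := congrArg Units.val hgy
    rw [Units.val_div_eq_div_val, pow_mul, div_pow, hgy', div_div_cancel₀
      (pow_ne_zero _ (u' o).ne_zero), hζ]
  choose! g hg N hN hgN using hdec
  set c' : Option (Fin n) → A := fun o => if o ∈ s' then c o * (g o : A) else 0
  have hcg : ∀ o, c' o ∈ K₁ := by
    intro o
    show (if o ∈ s' then c o * (g o : A) else 0) ∈ K₁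
    split_ifs with ho
    · refine mul_mem ?_ (hK₁ _ (hg o ho))
      cases o with
      | none => exact neg_mem (one_mem K₁)
      | some i =>
        exact IntermediateField.subset_adjoin ℚ _
          (mem_coe.2 (mem_union_right _ (mem_image_of_mem _ (mem_univ i))))
    · exact zero_mem _
  have hterm : ∀ o ∈ s', c' o * ((u' o / g o : Aˣ) : A) = c o * (u' o : A) := fun o ho => by
    simp only [c']
    rw [if_pos ho, Units.val_div_eq_div_val, mul_assoc, mul_div_cancel₀ _ (g o).ne_zero]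
  have key := hmann (Option (Fin n)) s' c' (fun o => ((u' o / g o : Aˣ) : A))
    (by rw [card_insertNone]; exact Nat.succ_le_succ (s.card_le_univ.trans (by simp)))
    hcg (fun o ho => ⟨N o, hN o ho, hgN o ho⟩) (by rw [sum_congr rfl hterm]; exact h0)
    (fun T hT hne h => hmin T hT hne (by rwa [sum_congr rfl fun o ho => hterm o (hT ho)] at h))
    (some i) (by simpa [s'] using his) none (by simp [s'])
  have hζ : u' (some i) / g (some i) / (u' none / g none) ∈ rootsOfUnity M₁ A := by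
    rw [mem_rootsOfUnity]
    refine Units.ext ?_
    rw [Units.val_pow_eq_pow_val, Units.val_div_eq_div_val, key, Units.val_one]
  have hu : u i = (g (some i) / g none) * (u' (some i) / g (some i) / (u' none / g none)) := by
    simp only [u', Option.elim, one_div, div_eq_mul_inv, one_mul, inv_inv]
    simp [mul_comm, mul_left_comm, mul_assoc]
  rw [hu]
  exact mul_mem (Subgroup.mem_sup_left (div_mem (hg _ (by simpa [s'] using his))
    (hg none (by simp [s'])))) (Subgroup.mem_sup_right hζ)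

/-- **Division groups of finitely generated groups of algebraic numbers.** -/
theorem unitEqFinite_hull_of_isAlgebraic {C : Type*} [Field C] [CharZero C]
    [Algebra.IsAlgebraic ℚ C] {Γ₀ : Subgroup Cˣ} (hΓ : Γ₀.FG) :
    UnitEqFinite (divisionHull Γ₀) := by
  haveI : Algebra.IsAlgebraic ℚ (AlgebraicClosure C) := Algebra.IsAlgebraic.trans ℚ C _
  refine UnitEqFinite.of_map (algebraMap C (AlgebraicClosure C)) ?_
  exact (unitEqFinite_hull_of_isAlgClosed (fg_map _ hΓ)).mono (map_divisionHull_le _ _)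

end FA.UnitEquationFields

end
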