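import Fermat.Agent.UnitEquationFields.Kummer
import Fermat.Agent.AxSchanuel.Euler
import Mathlib.FieldTheory.AlgebraicClosure

/-!
# The unit equation in a field of characteristic zero

Induction on the rank: a transcendental generator becomes the variable of a field of Puiseux series,
whose Euler derivation has as constants the coefficients, and these meet the group in smaller rank.
-/

set_option autoImplicit false

noncomputable section

open Finset

namespace FA.UnitEquationFields

universe u

variable {G G' : Type*} [CommGroup G] [CommGroup G']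

theorem toZMod_map (f : G →* G') (Γ : Subgroup G) :
    toZMod (Γ.map f) = (toZMod Γ).map f.toAdditive.toIntLinearMap := by
  ext x
  exact ⟨fun ⟨y, hy, e⟩ => ⟨Additive.ofMul y, hy, e⟩, fun ⟨y, hy, e⟩ => ⟨y.toMul, hy, e⟩⟩

theorem finrank_map {f : G →* G'} (hf : Function.Injective f) (Γ : Subgroup G) :
    Module.finrank ℤ (toZMod (Γ.map f)) = Module.finrank ℤ (toZMod Γ) := by
  rw [toZMod_map]
  exact (Submodule.equivMapOfInjective _ hf _).finrank_eq.symm

/-- An element without constant powers lowers the rank of the constants. -/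
theorem UnitEqFinite.of_embedding {C L K : Type*} [Field C] [Field L] [Field K] [Algebra C L]
    [CharZero C] {D : Derivation C L L} (hD : ∀ x, D x = 0 → x ∈ Set.range (algebraMap C L))
    {Γ : Subgroup Kˣ} (hΓ : Γ.FG) (e : K →+* L) {g : Kˣ} (hg : g ∈ Γ)
    (hpow : ∀ n : ℕ, n ≠ 0 → ∀ c : C, e g ^ n ≠ algebraMap C L c)
    (ih : ∀ Γ' : Subgroup Cˣ, Γ'.FG →
      Module.finrank ℤ (toZMod Γ') < Module.finrank ℤ (toZMod Γ) →
        UnitEqFinite (divisionHull Γ')) :
    UnitEqFinite (divisionHull Γ) := by
  refine UnitEqFinite.of_map e ?_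
  set f := Units.map (e : K →* L)
  have hinj : Function.Injective f := Units.map_injective e.injective
  have hc : Function.Injective (constUnits C L) := Units.map_injective (algebraMap C L).injective
  refine UnitEqFinite.mono ?_ (map_divisionHull_le f Γ)
  refine UnitEqFinite.of_constants hD (fg_map f hΓ) (ih _ (fg_comap hc (fg_map f hΓ)) ?_)
  rw [← finrank_map hinj Γ, ← finrank_map hc]
  refine finrank_lt (fg_map f hΓ) (Subgroup.map_comap_le _ _)
    (Subgroup.mem_map_of_mem f hg) fun m hm hmem => ?_
  have hnat : f g ^ m.natAbs ∈ ((Γ.map f).comap (constUnits C L)).map (constUnits C L) := by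
    rcases Int.natAbs_eq m with h | h <;> rw [h] at hmem
    · rwa [zpow_natCast] at hmem
    · rw [zpow_neg, zpow_natCast] at hmem
      exact inv_mem_iff.1 hmem
  obtain ⟨c, -, hc'⟩ := hnat
  exact hpow m.natAbs (Int.natAbs_ne_zero.2 hm) c (congrArg Units.val hc').symm

/-- The induction on the rank. -/
theorem unitEqFinite_aux : ∀ (r : ℕ) (K : Type u) [Field K] [CharZero K] (Γ : Subgroup Kˣ),
    Γ.FG → Module.finrank ℤ (toZMod Γ) = r → UnitEqFinite (divisionHull Γ) := by
  intro r
  induction r using Nat.strong_induction_on with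
  | _ r ih =>
    intro K _ _ Γ hΓ hr
    by_cases halg : ∀ g ∈ Γ, IsAlgebraic ℚ (g : K)
    · haveI : Algebra.IsAlgebraic ℚ (algebraicClosure ℚ K) :=
        ⟨fun x => (isAlgebraic_algebraMap_iff (algebraMap (algebraicClosure ℚ K) K).injective).1
          (mem_algebraicClosure_iff.1 x.2)⟩
      have hsub : divisionHull Γ ≤
          ((divisionHull Γ).comap (constUnits (algebraicClosure ℚ K) K)).map
          (constUnits (algebraicClosure ℚ K) K) := by
        rintro g ⟨m, hm, hg⟩
        have halg' : IsAlgebraic ℚ (g : K) := IsAlgebraic.of_pow (Nat.pos_of_ne_zero hm)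
          (by rw [← Units.val_pow_eq_pow_val]; exact halg _ hg)
        have he : constUnits (algebraicClosure ℚ K) K (Units.mk0
            ⟨g, mem_algebraicClosure_iff.2 halg'⟩
            fun h => g.ne_zero (congrArg Subtype.val h)) = g := Units.ext rfl
        exact Subgroup.mem_map.2 ⟨_, Subgroup.mem_comap.2 (he.symm ▸ ⟨m, hm, hg⟩), he⟩
      refine UnitEqFinite.mono ?_ hsub
      rw [comap_divisionHull]
      exact (unitEqFinite_hull_of_isAlgebraic (fg_comap
        (Units.map_injective (algebraMap (algebraicClosure ℚ K) K).injective) hΓ)).map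
    push Not at halg
    obtain ⟨g, hg, htr⟩ := halg
    obtain ⟨K', e, het, -⟩ := Fermat.Agent.AxSchanuel.exists_puiseux_embedding (C := ℚ)
      (A := AlgebraicClosure K) (t := algebraMap K (AlgebraicClosure K) g)
      ((transcendental_algebraMap_iff (algebraMap K (AlgebraicClosure K)).injective).2 htr)
    haveI : CharZero K' := charZero_of_injective_ringHom (algebraMap ℚ K').injective
    set L := HahnSeries ℚ K'
    set χ : ℚ →+ K' := (Rat.castHom K').toAddMonoidHom
    letI : Algebra K' L := HahnSeries.C.toAlgebra
    set D := Fermat.Agent.AxSchanuel.derivationOfConst (C := K') (F := L)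
      (Fermat.Agent.AxSchanuel.eulerFun χ) (Fermat.Agent.AxSchanuel.eulerFun_add χ)
      (Fermat.Agent.AxSchanuel.eulerFun_mul χ)
      fun c => Fermat.Agent.AxSchanuel.eulerFun_C χ c
    have hD : ∀ x, D x = 0 → x ∈ Set.range (algebraMap K' L) := fun x hx => ⟨x.coeff 0, by
      refine HahnSeries.ext (funext fun q => ?_)
      rw [RingHom.algebraMap_toAlgebra]
      rcases eq_or_ne q 0 with rfl | hq
      · rw [HahnSeries.C_apply]
        exact HahnSeries.coeff_single_same _ _
      · have h : (q : K') * x.coeff q = 0 := congrArg (fun y : L => y.coeff q) hx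
        rw [HahnSeries.C_apply, HahnSeries.coeff_single_of_ne hq]
        exact ((mul_eq_zero.1 h).resolve_left (Rat.cast_ne_zero.2 hq)).symm⟩
    refine UnitEqFinite.of_embedding hD hΓ (e.comp (algebraMap K (AlgebraicClosure K))) hg
      (fun n hn c h => ?_) fun Γ' hΓ' hlt => ih _ (hr ▸ hlt) K' Γ' hΓ' rfl
    rw [RingHom.comp_apply, het, HahnSeries.single_pow, one_pow, RingHom.algebraMap_toAlgebra,
      HahnSeries.C_apply] at h
    have := congrArg (fun y : L => y.coeff (n • (1 : ℚ))) h
    simp [hn] at this

/-- **The unit equation in several variables**: every field of characteristic zero, every group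
of finite rank. -/
theorem unitEqFinite_divisionHull {K : Type u} [Field K] [CharZero K] {Γ : Subgroup Kˣ}
    (hΓ : Γ.FG) : UnitEqFinite (divisionHull Γ) :=
  unitEqFinite_aux _ K Γ hΓ rfl

/-- **The unit equation in several variables**: finitely generated groups. -/
theorem unitEqFinite_of_fg {K : Type u} [Field K] [CharZero K] {Γ : Subgroup Kˣ} (hΓ : Γ.FG) :
    UnitEqFinite Γ :=
  (unitEqFinite_divisionHull hΓ).mono (le_divisionHull Γ)

end FA.UnitEquationFields

end
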