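import Fermat.Agent.UnitEquationFields.Wronskian
import Fermat.Agent.AxSchanuel.Differential
import Mathlib.GroupTheory.Finiteness
import Mathlib.LinearAlgebra.Dimension.Localization

/-!
# The unit equation: from a differential field to its constants

Minimal relations over the constants among the summands bound the valuations of the solutions; the
valuations trivial on the constants separate a finitely generated group modulo the constants, so
every solution is one of finitely many times a solution in constants.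
-/

set_option autoImplicit false

noncomputable section

open Finset

namespace FA.UnitEquationFields

variable {C F : Type*} [Field C] [Field F] [Algebra C F]

/-- A vanishing sum, not vanishing on `t`: a minimal relation meeting `t` and its complement. -/
theorem exists_circuit {κ : Type*} [DecidableEq κ] (f : κ → F) (hf : ∀ i, f i ≠ 0) (s t : Finset κ)
    (hts : t ⊆ s) (h0 : ∑ i ∈ s, f i = 0) (ht : ∑ i ∈ t, f i ≠ 0) :
    ∃ (j : κ) (E : Finset κ) (μ : κ → C), j ∈ s ∧ j ∉ t ∧ E ⊆ s ∧ (∀ i, μ i ≠ 0) ∧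
      LinearIndepOn C (fun i => algebraMap C F (μ i) * (f i / f j)) (E : Set κ) ∧
      ∑ i ∈ E, algebraMap C F (μ i) * (f i / f j) = 1 ∧ ∃ i ∈ E, i ∈ t := by
  classical
  set good : Finset κ → Prop := fun T => T ⊆ s ∧ ∃ μ : κ → C, (∀ i ∉ T, μ i = 0) ∧
    (∀ i ∈ T, μ i ≠ 0) ∧ ∑ i ∈ s, μ i • f i = 0 ∧ ∑ i ∈ t, μ i • f i ≠ 0
  obtain ⟨T, hT, hmin⟩ := exists_min_image (s.powerset.filter good) Finset.card
    ⟨s, mem_filter.2 ⟨mem_powerset.2 subset_rfl, subset_rfl, fun i => if i ∈ s then 1 else 0,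
      fun i hi => if_neg hi, fun i hi => by simp [hi], by
        rw [← h0]
        exact sum_congr rfl fun i hi => by simp [hi], by
        refine ne_of_eq_of_ne (sum_congr rfl fun i hi => ?_) ht
        simp [hts hi]⟩⟩
  obtain ⟨-, hTs, μ, hμ0, hμ, hμs, hμt⟩ := mem_filter.1 hT
  have hsT : ∀ ν : κ → C, (∀ i ∉ T, ν i = 0) → ∑ i ∈ s, ν i • f i = ∑ i ∈ T, ν i • f i :=
    fun ν hν => (sum_subset hTs fun i _ hi => by rw [hν i hi, zero_smul]).symm
  -- fewer points carry no such relation
  have hsmall : ∀ ν : κ → C, ∀ k ∈ T, ν k = 0 → (∀ i ∉ T, ν i = 0) →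
      ∑ i ∈ s, ν i • f i = 0 → ∑ i ∈ t, ν i • f i = 0 := fun ν k hk hνk hν hνs => by
    by_contra hνt
    have := hmin (T.filter fun i => ν i ≠ 0) (mem_filter.2 ⟨mem_powerset.2
      ((filter_subset _ _).trans hTs), (filter_subset _ _).trans hTs, ν, fun i hi => by
        by_cases hiT : i ∈ T
        · simpa [hiT] using hi
        · exact hν i hiT, fun i hi => (mem_filter.1 hi).2, hνs, hνt⟩)
    exact absurd this (not_le.2 (card_lt_card ((ssubset_iff_of_subset (filter_subset _ _)).2
      ⟨k, hk, by simp [hνk]⟩)))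
  -- what remains after deleting a point is independent
  have hind : ∀ j ∈ T, LinearIndepOn C f (↑(T.erase j) : Set κ) := fun j hj => by
    rw [linearIndepOn_finset_iff]
    intro c hc
    by_contra! hne
    obtain ⟨k, hk, hck⟩ := hne
    set ν : κ → C := fun i => if i ∈ T.erase j then c i else 0
    have hνT : ∀ i ∉ T, ν i = 0 := fun i hi => if_neg fun h => hi (mem_erase.1 h).2
    have hνs : ∑ i ∈ s, ν i • f i = 0 := by
      rw [← hc, ← sum_subset ((erase_subset j T).trans hTs) fun i _ hi => by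
        rw [show ν i = 0 from if_neg hi, zero_smul]]
      exact sum_congr rfl fun i hi => by rw [show ν i = c i from if_pos hi]
    have hνt := hsmall ν j hj (if_neg (notMem_erase j T)) hνT hνs
    have hνk : ν k = c k := if_pos hk
    refine hμt ?_
    have := hsmall (fun i => μ i - μ k / ν k * ν i) k (mem_erase.1 hk).2
      (by simp [hνk, hck]) (fun i hi => by simp [hμ0 i hi, hνT i hi]) (by
        simp only [sub_smul, sum_sub_distrib, mul_smul, ← smul_sum, hνs, hμs, smul_zero, sub_zero])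
    simpa only [sub_smul, sum_sub_distrib, mul_smul, ← smul_sum, hνt, smul_zero, sub_zero]
      using this
  obtain ⟨j, hjT, hjt⟩ : ∃ j ∈ T, j ∉ t := by
    by_contra! h
    refine hμt ?_
    rw [← hμs]
    exact sum_subset hts fun i _ hit => by
      rw [hμ0 i fun hiT => hit (h i hiT), zero_smul]
  obtain ⟨i₀, hi₀t, hi₀⟩ : ∃ i ∈ t, i ∈ T := by
    by_contra! h
    exact hμt (sum_eq_zero fun i hi => by rw [hμ0 i (h i hi), zero_smul])
  set ν : κ → C := fun i => if i ∈ T then -(μ i / μ j) else 1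
  have hν : ∀ i, ν i ≠ 0 := fun i => by
    simp only [ν]; split_ifs with h
    exacts [neg_ne_zero.2 (div_ne_zero (hμ i h) (hμ j hjT)), one_ne_zero]
  refine ⟨j, T.erase j, ν, hTs hjT, hjt, (erase_subset _ _).trans hTs, hν, ?_, ?_, i₀,
    mem_erase.2 ⟨fun h => hjt (h ▸ hi₀t), hi₀⟩, hi₀t⟩
  · have h := hind j hjT
    rw [linearIndepOn_finset_iff] at h ⊢
    intro c hc k hk
    have hz : ∑ i ∈ T.erase j, (c i * ν i) • f i = 0 := by
      have := congrArg (· * f j) hc
      simp only [sum_mul, zero_mul, Algebra.smul_def, mul_assoc,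
        div_mul_cancel₀ _ (hf j)] at this
      rw [← this]
      exact sum_congr rfl fun i _ => by rw [Algebra.smul_def, map_mul, mul_assoc]
    exact (mul_eq_zero.1 (h _ hz k hk)).resolve_right (hν k)
  · rw [hsT μ hμ0, ← add_sum_erase _ _ hjT] at hμs
    rw [sum_congr rfl fun i hi => show algebraMap C F (ν i) * (f i / f j) =
      -(μ i • f i) / (algebraMap C F (μ j) * f j) by
        rw [show ν i = -(μ i / μ j) from if_pos (mem_erase.1 hi).2, map_neg, map_div₀,
          Algebra.smul_def, neg_mul, div_mul_div_comm, neg_div],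
      ← sum_div, sum_neg_distrib, ← eq_neg_of_add_eq_zero_left hμs, Algebra.smul_def, div_self]
    exact mul_ne_zero ((map_ne_zero _).2 (hμ j hjT)) (hf j)

variable {D : Derivation C F F}

/-- **Valuations of the solutions**: finitely many values. -/
theorem finite_valuation_units [CharZero C] (hD : ∀ x, D x = 0 → x ∈ Set.range (algebraMap C F))
    {Γ : Subgroup Fˣ} (hΓ : Γ.FG) {n : ℕ} (a : Fin n → F) (s : Finset (Fin n))
    (ha : ∀ i ∈ s, a i ≠ 0) {B : ValuationSubring F} (hB : TrivialOn C B) :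
    ∃ W : Set B.ValueGroup, W.Finite ∧ ∀ u ∈ solutionsOn (divisionHull Γ) a s, ∀ i,
      B.valuation (u i : F) ∈ W := by
  classical
  set a' : Option (Fin n) → F := fun k => k.elim (-1) fun i => if i ∈ s then a i else 1
  have ha' : ∀ k, a' k ≠ 0
    | none => neg_ne_zero.2 one_ne_zero
    | some i => by
        show (if i ∈ s then a i else 1) ≠ 0
        split_ifs with h
        exacts [ha i h, one_ne_zero]
  choose U hU hUmem using fun j => exists_fg_quotient hD hΓ (fun k => a' k / a' j)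
    fun k => div_ne_zero (ha' k) (ha' j)
  set Q : Set B.ValueGroup := ⋃ j, Set.image2 (· / ·) (B.valuation '' {x | x ∈ U j ∧ x ≠ 0})
    (B.valuation '' {x | x ∈ U j ∧ x ≠ 0})
  have hQ : Q.Finite := Set.finite_iUnion fun j =>
    (finite_values hB (hU j)).image2 _ (finite_values hB (hU j))
  let A : ℕ → Set B.ValueGroup := fun k =>
    Nat.rec {B.valuation (a' none)} (fun _ A => A ∪ Set.image2 (· / ·) A Q) k
  have hA : ∀ k, (A k).Finite := fun k => by
    induction k with
    | zero => exact Set.finite_singleton _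
    | succ k ih => exact ih.union (ih.image2 _ hQ)
  refine ⟨_, (Set.finite_iUnion fun i : Fin n =>
    (hA (n + 1)).image fun w => w / B.valuation (a' (some i))).insert 1, fun u hu i => ?_⟩
  by_cases his : i ∈ s
  swap
  · exact Or.inl (by rw [hu.2.1 i his, Units.val_one, map_one])
  right
  set u' : Option (Fin n) → Fˣ := fun k => k.elim 1 u
  set f : Option (Fin n) → F := fun k => a' k * u' k
  have hu' : ∀ k, u' k ∈ divisionHull Γ
    | none => one_mem _
    | some i => hu.1 i
  have hf : ∀ k, f k ≠ 0 := fun k => mul_ne_zero (ha' k) (u' k).ne_zero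
  set s' := insertNone s
  have hsome : ∀ t ⊆ s, ∑ k ∈ t.map Function.Embedding.some, f k =
      ∑ i ∈ t, a i * (u i : F) := fun t ht => by
    rw [sum_map]
    exact sum_congr rfl fun i hi => by simp [f, a', u', ht hi]
  have hs' : s' = insert none (s.map Function.Embedding.some) := by
    ext k; cases k <;> simp [s']
  have h0 : ∑ k ∈ s', f k = 0 := by
    rw [hs', sum_insert (by simp), hsome s subset_rfl, hu.2.2.1]
    simp [f, a', u']
  have hno : ∀ t ⊆ s', none ∈ t → t ≠ s' → ∑ k ∈ t, f k ≠ 0 := fun t ht hnt hts hc => by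
    have hsd : s' \ t = (s.filter fun i => some i ∉ t).map Function.Embedding.some := by
      ext k; cases k <;> simp [s', hnt]
    have hne : (s.filter fun i => some i ∉ t).Nonempty := by
      rw [← map_nonempty (f := Function.Embedding.some), ← hsd, sdiff_nonempty]
      exact fun h => hts (ht.antisymm h)
    refine hu.2.2.2 _ (filter_subset _ _) hne ?_
    rw [← hsome _ (filter_subset _ _), ← hsd, sum_sdiff_eq_sub ht, h0, hc, sub_zero]
  have hreach : ∀ k, ∃ t ⊆ s', none ∈ t ∧ (t = s' ∨ k + 1 ≤ t.card) ∧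
      ∀ j ∈ t, B.valuation (f j) ∈ A k := fun k => by
    induction k with
    | zero =>
      exact ⟨{none}, by simp [s'], by simp, Or.inr (by simp), fun j hj => by
        simp [mem_singleton.1 hj, A, f, u']⟩
    | succ k ih =>
      obtain ⟨t, ht, hnt, hcard, hmem⟩ := ih
      by_cases hts : t = s'
      · exact ⟨t, ht, hnt, Or.inl hts, fun j hj => Or.inl (hmem j hj)⟩
      obtain ⟨j, E, μ, hjs, hjt, -, hμ, hind, hsum, i₁, hi₁E, hi₁t⟩ :=
        exists_circuit (C := C) f hf s' t ht h0 (hno t ht hnt hts)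
      have hrw : ∀ k, algebraMap C F (μ k) * (a' k / a' j) * ((u' k / u' j : Fˣ) : F) =
          algebraMap C F (μ k) * (f k / f j) := fun k => by
        rw [Units.val_div_eq_div_val, mul_assoc, div_mul_div_comm]
      obtain ⟨p, hp, q, hq, hq0, hpq⟩ := hUmem j E μ (fun k => u' k / u' j)
        (fun k => div_mem (hu' k) (hu' j)) hμ (hind.congr fun k _ => (hrw k).symm)
        (by rw [← hsum]; exact sum_congr rfl fun k _ => hrw k) i₁ hi₁E
      rw [hrw] at hpq
      have hp0 : p ≠ 0 := fun h => by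
        rw [h, zero_div, mul_eq_zero] at hpq
        exact hpq.elim ((map_ne_zero _).2 (hμ i₁)) (div_ne_zero (hf i₁) (hf j))
      refine ⟨insert j t, insert_subset hjs ht, mem_insert_of_mem hnt, Or.inr ?_, fun l hl => ?_⟩
      · rw [card_insert_of_notMem hjt]
        have := hcard.resolve_left hts
        omega
      rcases mem_insert.1 hl with rfl | hl
      · refine Or.inr ⟨_, hmem i₁ hi₁t, B.valuation p / B.valuation q, Set.mem_iUnion.2 ⟨l,
          Set.mem_image2_of_mem ⟨p, ⟨hp, hp0⟩, rfl⟩ ⟨q, ⟨hq, hq0⟩, rfl⟩⟩, ?_⟩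
        show B.valuation (f i₁) / (B.valuation p / B.valuation q) = _
        rw [← map_div₀ B.valuation p q, ← hpq, map_mul B.valuation (algebraMap C F (μ i₁)),
          valuation_const hB (hμ i₁), one_mul, map_div₀,
          div_div_cancel₀ ((Valuation.ne_zero_iff _).2 (hf i₁))]
      · exact Or.inl (hmem l hl)
  obtain ⟨t, ht, -, hcard, hmem⟩ := hreach (n + 1)
  have hts : t = s' := hcard.resolve_right fun h => by
    have := h.trans ((card_le_univ t).trans_eq
      (Fintype.card_option.trans (by rw [Fintype.card_fin])))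
    omega
  refine Set.mem_iUnion.2 ⟨i, _, hmem (some i) (hts ▸ by simp [s', his]), ?_⟩
  show B.valuation (f (some i)) / B.valuation (a' (some i)) = _
  rw [show f (some i) = a' (some i) * (u i : F) from rfl, map_mul,
    mul_div_cancel_left₀ _ ((Valuation.ne_zero_iff _).2 (ha' _))]

/-- A group as a module over the integers. -/
def toZMod {G : Type*} [CommGroup G] (Γ : Subgroup G) : Submodule ℤ (Additive G) :=
  AddSubgroup.toIntSubmodule (Subgroup.toAddSubgroup Γ)

theorem mem_toZMod {G : Type*} [CommGroup G] {Γ : Subgroup G} {x : Additive G} :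
    x ∈ toZMod Γ ↔ x.toMul ∈ Γ :=
  Iff.rfl

theorem fg_toZMod {G : Type*} [CommGroup G] {Γ : Subgroup G} : (toZMod Γ).FG ↔ Γ.FG := by
  rw [Submodule.fg_iff_addSubgroup_fg, toZMod, AddSubgroup.toIntSubmodule_toAddSubgroup,
    ← Subgroup.fg_iff_add_fg]

theorem fg_of_le {G : Type*} [CommGroup G] {Γ Γ' : Subgroup G} (h : Γ' ≤ Γ) (hΓ : Γ.FG) :
    Γ'.FG := by
  rw [← fg_toZMod] at hΓ ⊢
  exact hΓ.of_le (fun x hx => h hx)

section

variable {G G' : Type*} [CommGroup G] [CommGroup G']

theorem fg_comap {f : G →* G'} (hf : Function.Injective f) {Γ : Subgroup G'} (hΓ : Γ.FG) :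
    (Γ.comap f).FG := by
  obtain ⟨S, hS⟩ := fg_of_le (inf_le_right : f.range ⊓ Γ ≤ Γ) hΓ
  have hfin : (f ⁻¹' (S : Set G')).Finite := S.finite_toSet.preimage hf.injOn
  refine (Subgroup.fg_iff _).2 ⟨f ⁻¹' S, Subgroup.map_injective hf ?_, hfin⟩
  rw [MonoidHom.map_closure, Set.image_preimage_eq_of_subset fun x hx => ?_, hS,
    Subgroup.map_comap_eq]
  exact (hS.le (Subgroup.subset_closure hx)).1

theorem fg_map (f : G →* G') {Γ : Subgroup G} (hΓ : Γ.FG) : (Γ.map f).FG := by
  classical
  obtain ⟨S, hS⟩ := hΓ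
  exact ⟨S.image f, by rw [coe_image, ← MonoidHom.map_closure, hS]⟩

end

/-- A subgroup missing all powers of an element has smaller rank. -/
theorem finrank_lt {G : Type*} [CommGroup G] {Γ Γ' : Subgroup G} (hΓ : Γ.FG) (hle : Γ' ≤ Γ)
    {x : G} (hx : x ∈ Γ) (hm : ∀ m : ℤ, m ≠ 0 → x ^ m ∉ Γ') :
    Module.finrank ℤ (toZMod Γ') < Module.finrank ℤ (toZMod Γ) := by
  haveI : Module.Finite ℤ (toZMod Γ) := Module.Finite.iff_fg.2 (fg_toZMod.2 hΓ)
  set N := (toZMod Γ').comap (toZMod Γ).subtype
  have hN : Module.finrank ℤ N = Module.finrank ℤ (toZMod Γ') :=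
    (Submodule.comapSubtypeEquivOfLe (p := toZMod Γ') (q := toZMod Γ) fun y hy => hle hy).finrank_eq
  have h := N.finrank_quotient_add_finrank
  have hind : LinearIndependent ℤ fun _ : Unit =>
      N.mkQ (⟨Additive.ofMul x, hx⟩ : toZMod Γ) := by
    rw [Fintype.linearIndependent_iff]
    intro c hc u
    simp only [univ_unique, sum_singleton] at hc
    by_contra hne
    rw [← map_smul, Submodule.mkQ_apply, Submodule.Quotient.mk_eq_zero] at hc
    exact hm _ hne hc
  have := hind.fintype_card_le_finrank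
  rw [Fintype.card_unit] at this
  omega

variable [CharZero C]

/-- The constants among the units. -/
def constUnits (C F : Type*) [Field C] [Field F] [Algebra C F] : Cˣ →* Fˣ :=
  Units.map (algebraMap C F : C →* F)

/-- **Separation**: a set with finitely many values at each valuation trivial on the constants
meets finitely many classes modulo the constants. -/
theorem exists_finite_reps (hD : ∀ x, D x = 0 → x ∈ Set.range (algebraMap C F))
    {Γ : Subgroup Fˣ} (hΓ : Γ.FG) {X : Set Fˣ} (hX : X ⊆ divisionHull Γ)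
    (hv : ∀ B : ValuationSubring F, TrivialOn C B →
      ((fun x : Fˣ => B.valuation (x : F)) '' X).Finite) :
    ∃ R : Set Fˣ, R.Finite ∧ ∀ x ∈ X, ∃ r ∈ R, ∃ c : Cˣ,
      constUnits C F c ∈ divisionHull Γ ∧ x = r * constUnits C F c := by
  classical
  set Val := {B : ValuationSubring F // TrivialOn C B}
  set N : Finset Val → Subgroup Fˣ := fun P => Γ ⊓ ⨅ B ∈ P,
    (Units.map (B.1.valuation : F →* B.1.ValueGroup)).ker
  have hmemN : ∀ P x, x ∈ N P ↔ x ∈ Γ ∧ ∀ B ∈ P, B.1.valuation (x : F) = 1 := fun P x => by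
    simp [N, Subgroup.mem_inf, Subgroup.mem_iInf, Units.ext_iff]
  set P := Function.argmin fun P => Module.finrank ℤ (toZMod (N P))
  have hmin : ∀ P', Module.finrank ℤ (toZMod (N P)) ≤ Module.finrank ℤ (toZMod (N P')) := fun P' =>
    not_lt.1 (Function.not_lt_argmin (fun P => Module.finrank ℤ (toZMod (N P))) P')
  have hconst : ∀ x ∈ N P, D (x : F) = 0 := fun x hx => by
    by_contra hne
    obtain ⟨B, hB, hlt⟩ := exists_valuation_lt_one (C := C) (x := (x : F)) fun h =>
      hne (Fermat.Agent.AxSchanuel.constant_of_isAlgebraic D h)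
    refine (hmin (insert ⟨B, hB⟩ P)).not_gt (finrank_lt (fg_of_le (fun y hy => hy.1) hΓ)
      (fun y hy => ?_) hx fun m hm hmem => ?_)
    · rw [hmemN] at hy ⊢
      exact ⟨hy.1, fun B' hB' => hy.2 B' (mem_insert_of_mem hB')⟩
    · have h := ((hmemN _ _).1 hmem).2 ⟨B, hB⟩ (mem_insert_self _ _)
      rw [Units.val_zpow_eq_zpow_val, map_zpow₀] at h
      exact hm ((zpow_eq_one_iff_right₀ _root_.zero_le hlt.ne).1 h)
  set g : Fˣ → ∀ B : P, B.1.1.ValueGroup := fun x B => B.1.1.valuation (x : F)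
  have hg : (g '' X).Finite := (Set.Finite.pi fun B : P => hv B.1.1 B.1.2).subset
    (by rintro _ ⟨x, hx, rfl⟩ B -; exact ⟨x, hx, rfl⟩)
  choose! rep hrep hrepg using fun w (hw : w ∈ g '' X) => hw
  refine ⟨rep '' (g '' X), hg.image _, fun x hx => ⟨rep (g x), ⟨_, ⟨x, hx, rfl⟩, rfl⟩, ?_⟩⟩
  set r := rep (g x)
  have hr : r ∈ divisionHull Γ := hX (hrep _ ⟨x, hx, rfl⟩)
  have hrx : r⁻¹ * x ∈ divisionHull Γ := mul_mem (inv_mem hr) (hX hx)
  obtain ⟨m, hm, hrxm⟩ := hrx
  have hN : ∀ B ∈ P, B.1.valuation ((r⁻¹ * x : Fˣ) : F) = 1 := fun B hB => by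
    have h := congrFun (hrepg _ ⟨x, hx, rfl⟩) ⟨B, hB⟩
    change B.1.valuation (r : F) = B.1.valuation (x : F) at h
    rw [Units.val_mul, map_mul, Units.val_inv_eq_inv_val, map_inv₀, ← h,
      inv_mul_cancel₀ ((Valuation.ne_zero_iff _).2 r.ne_zero)]
  have hpow : D ((((r⁻¹ * x) ^ m : Fˣ)) : F) = 0 := hconst _ ((hmemN _ _).2 ⟨hrxm, fun B hB => by
    rw [Units.val_pow_eq_pow_val, map_pow, hN B hB, one_pow]⟩)
  rw [Units.val_pow_eq_pow_val, D.leibniz_pow, nsmul_eq_mul, smul_eq_mul, mul_eq_zero,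
    mul_eq_zero] at hpow
  haveI : CharZero F := charZero_of_injective_ringHom (algebraMap C F).injective
  obtain ⟨c, hc⟩ := hD _ ((hpow.resolve_left (Nat.cast_ne_zero.2 hm)).resolve_left
    (pow_ne_zero _ (r⁻¹ * x).ne_zero))
  have hc0 : c ≠ 0 := fun h => (r⁻¹ * x).ne_zero (by rw [← hc, h, map_zero])
  have he : constUnits C F (Units.mk0 c hc0) = r⁻¹ * x := Units.ext hc
  exact ⟨Units.mk0 c hc0, he ▸ ⟨m, hm, hrxm⟩, by rw [he, mul_inv_cancel_left]⟩

/-- **The step**: finiteness in the constants gives finiteness in the field. -/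
theorem UnitEqFinite.of_constants (hD : ∀ x, D x = 0 → x ∈ Set.range (algebraMap C F))
    {Γ : Subgroup Fˣ} (hΓ : Γ.FG) (h : UnitEqFinite (divisionHull (Γ.comap (constUnits C F)))) :
    UnitEqFinite (divisionHull Γ) := by
  classical
  intro n a s ha
  rw [← comap_divisionHull] at h
  set X : Set Fˣ := {x | ∃ u ∈ solutionsOn (divisionHull Γ) a s, ∃ i, u i = x}
  obtain ⟨R, hR, hRX⟩ := exists_finite_reps hD hΓ (X := X)
    (by rintro _ ⟨u, hu, i, rfl⟩; exact hu.1 i) fun B hB => by
      obtain ⟨W, hW, hWu⟩ := finite_valuation_units hD hΓ a s ha hB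
      refine hW.subset ?_
      rintro _ ⟨_, ⟨u, hu, i, rfl⟩, rfl⟩
      exact hWu u hu i
  refine Set.Finite.subset (s := ⋃ r ∈ Set.univ.pi (fun _ : Fin n => insert 1 R),
      (fun c : Fin n → Fˣ => r * c) ''
        solutionsOn (((divisionHull Γ).comap (constUnits C F)).map (constUnits C F))
        (fun i => a i * (r i : F)) s)
    ((Set.Finite.pi fun _ : Fin n => hR.insert 1).biUnion fun r _ =>
      (h.map (F := F) n _ s fun i hi => mul_ne_zero (ha i hi) (r i).ne_zero).image _)
    fun u hu => ?_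
  have hsplit : ∀ i, ∃ r ∈ insert 1 R, ∃ c : Cˣ, constUnits C F c ∈ divisionHull Γ ∧
      (i ∉ s → c = 1) ∧ u i = r * constUnits C F c := fun i => by
    by_cases hi : i ∈ s
    · obtain ⟨r, hr, c, hc, he⟩ := hRX _ ⟨u, hu, i, rfl⟩
      exact ⟨r, Or.inr hr, c, hc, fun h => absurd hi h, he⟩
    · exact ⟨1, Or.inl rfl, 1, by simp, fun _ => rfl, by simp [hu.2.1 i hi]⟩
  choose r hr c hc hc1 he using hsplit
  have hval : ∀ i, a i * (r i : F) * (constUnits C F (c i) : F) = a i * (u i : F) := fun i => by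
    rw [he i, Units.val_mul, mul_assoc]
  refine Set.mem_biUnion (x := r) (fun i _ => hr i) ⟨fun i => constUnits C F (c i),
    ⟨fun i => Subgroup.mem_map_of_mem _ (hc i), fun i hi => by simp only [hc1 i hi, map_one], ?_,
      fun T hT hne h0 => hu.2.2.2 T hT hne ?_⟩, funext fun i => (he i).symm⟩
  · rw [← hu.2.2.1]
    exact sum_congr rfl fun i _ => hval i
  · rw [← h0]
    exact sum_congr rfl fun i _ => (hval i).symm

end FA.UnitEquationFields

end
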