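import Fermat.Agent.UnitEquationFields.Rank
import Mathlib.Algebra.MvPolynomial.Eval

/-!
# Laurent's theorem on tori

The group has finite rank: it lies in the division hull of a finitely generated one. The terms of
the equations at a point of the group split into vanishing sums without vanishing
proper part; by the unit equation their quotients take finitely many values, and these values cut
out finitely many cosets of algebraic subgroups inside the variety.
-/

set_option autoImplicit false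

noncomputable section

open Finset

namespace FA.UnitEquationFields

universe v

section

variable {K : Type*} [Field K]

/-- A vanishing sum without vanishing proper part. -/
def IsMinVanishing {ι : Type*} (t : ι → K) (B : Finset ι) : Prop :=
  B.Nonempty ∧ ∑ e ∈ B, t e = 0 ∧ ∀ T ⊆ B, T.Nonempty → ∑ e ∈ T, t e = 0 → T = B

theorem exists_minVanishing {ι : Type*} (t : ι → K) (A : Finset ι) :
    A.Nonempty → ∑ e ∈ A, t e = 0 → ∃ B ⊆ A, IsMinVanishing t B := by
  induction A using Finset.strongInduction with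
  | _ A ih =>
    intro hA hsum
    by_cases h : ∀ T ⊆ A, T.Nonempty → ∑ e ∈ T, t e = 0 → T = A
    · exact ⟨A, subset_rfl, hA, hsum, h⟩
    · push Not at h
      obtain ⟨T, hT, hTne, hT0, hTA⟩ := h
      obtain ⟨B, hB, hBm⟩ := ih T (hT.ssubset_of_ne hTA) hTne hT0
      exact ⟨B, hB.trans hT, hBm⟩

/-- Weights constant on the minimal parts keep a sum zero. -/
theorem sum_weights_eq_zero {ι L : Type*} [Field L] [Algebra K L] (t : ι → K) (g : ι → L)
    (A : Finset ι) : ∑ e ∈ A, t e = 0 →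
      (∀ B ⊆ A, IsMinVanishing t B → ∀ e ∈ B, ∀ e' ∈ B, g e = g e') →
      ∑ e ∈ A, algebraMap K L (t e) * g e = 0 := by
  classical
  induction A using Finset.strongInduction with
  | _ A ih =>
    intro hsum hg
    rcases A.eq_empty_or_nonempty with rfl | hA
    · simp
    obtain ⟨B, hB, hBm⟩ := exists_minVanishing t A hA hsum
    obtain ⟨e₀, he₀⟩ := hBm.1
    have h1 : ∑ e ∈ A \ B, t e = 0 := by rw [sum_sdiff_eq_sub hB, hsum, hBm.2.1, sub_zero]
    rw [← sum_sdiff hB, ih _ (sdiff_ssubset hB hBm.1) h1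
      (fun C hC => hg C (hC.trans sdiff_subset)), zero_add,
      sum_congr rfl fun e he => by rw [hg B hB hBm e he e₀ he₀], ← sum_mul, ← map_sum, hBm.2.1,
      map_zero, zero_mul]

variable {n : ℕ}

/-- The character with exponents `w`. -/
def character (w : Fin n → ℤ) : (Fin n → Kˣ) →* Kˣ where
  toFun γ := ∏ i, γ i ^ w i
  map_one' := by simp
  map_mul' γ δ := by simp [mul_zpow, prod_mul_distrib]

theorem coe_character (w : Fin n → ℤ) (γ : Fin n → Kˣ) :
    (character w γ : K) = ∏ i, (γ i : K) ^ w i := by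
  simp [character]

/-- The difference of two exponents. -/
def exponentDiff (e e' : Fin n →₀ ℕ) : Fin n → ℤ := fun i => (e i : ℤ) - e' i

theorem prod_zpow_exponentDiff {L : Type*} [Field L] {z : Fin n → L} (hz : ∀ i, z i ≠ 0)
    (e e' : Fin n →₀ ℕ) :
    ∏ i, z i ^ exponentDiff e e' i = (∏ i, z i ^ e i) / ∏ i, z i ^ e' i := by
  rw [← prod_div_distrib]
  exact prod_congr rfl fun i _ => by
    rw [exponentDiff, zpow_sub₀ (hz i), zpow_natCast, zpow_natCast]

/-- A term of a polynomial at a point of the torus. -/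
def term (f : MvPolynomial (Fin n) K) (γ : Fin n → Kˣ) (e : Fin n →₀ ℕ) : K :=
  f.coeff e * ∏ i, (γ i : K) ^ e i

theorem eval_eq_sum_term (f : MvPolynomial (Fin n) K) (γ : Fin n → Kˣ) :
    MvPolynomial.eval (fun i => (γ i : K)) f = ∑ e ∈ f.support, term f γ e :=
  MvPolynomial.eval_eq' _ f

/-- The differences of the exponents of the equations. -/
def allExps (F : Finset (MvPolynomial (Fin n) K)) : Finset (Fin n → ℤ) :=
  (F.sigma fun f => f.support ×ˢ f.support).image fun q => exponentDiff q.2.1 q.2.2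

/-- The exponent differences within the minimal vanishing parts at `γ`. -/
def relExps (F : Finset (MvPolynomial (Fin n) K)) (γ : Fin n → Kˣ) : Finset (Fin n → ℤ) :=
  (Set.Finite.subset (allExps F).finite_toSet
    (Set.sep_subset (↑(allExps F)) fun w : Fin n → ℤ => ∃ f ∈ F, ∃ B ⊆ f.support,
      IsMinVanishing (term f γ) B ∧ ∃ e ∈ B, ∃ e' ∈ B, exponentDiff e e' = w)).toFinset

theorem mem_relExps {F : Finset (MvPolynomial (Fin n) K)} {γ : Fin n → Kˣ} {w : Fin n → ℤ} :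
    w ∈ relExps F γ ↔ w ∈ allExps F ∧ ∃ f ∈ F, ∃ B ⊆ f.support, IsMinVanishing (term f γ) B ∧
      ∃ e ∈ B, ∃ e' ∈ B, exponentDiff e e' = w := by
  rw [relExps, Set.Finite.mem_toFinset]
  exact Iff.rfl

theorem exponentDiff_mem_relExps {F : Finset (MvPolynomial (Fin n) K)} {γ : Fin n → Kˣ}
    {f : MvPolynomial (Fin n) K} (hf : f ∈ F) {B : Finset (Fin n →₀ ℕ)} (hB : B ⊆ f.support)
    (hBm : IsMinVanishing (term f γ) B) {e e' : Fin n →₀ ℕ} (he : e ∈ B) (he' : e' ∈ B) :
    exponentDiff e e' ∈ relExps F γ :=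
  mem_relExps.2 ⟨mem_image.2 ⟨⟨f, e, e'⟩, mem_sigma.2 ⟨hf, mem_product.2 ⟨hB he, hB he'⟩⟩, rfl⟩,
    f, hf, B, hB, hBm, e, he, e', he', rfl⟩

/-- **The coset inside the variety**: it is enough to agree on the characters. -/
theorem aeval_eq_zero_of_character {F : Finset (MvPolynomial (Fin n) K)} {u : Fin n → Kˣ}
    (hu : ∀ f ∈ F, MvPolynomial.eval (fun i => (u i : K)) f = 0) {L : Type*} [Field L] [Algebra K L]
    (z : Fin n → L) (hz : ∀ i, z i ≠ 0)
    (hzw : ∀ w ∈ relExps F u, ∏ i, z i ^ w i = algebraMap K L (character w u)) :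
    ∀ f ∈ F, MvPolynomial.aeval z f = 0 := fun f hf => by
  have huL : ∀ e : Fin n →₀ ℕ, algebraMap K L (∏ i, (u i : K) ^ e i) ≠ 0 := fun e =>
    (map_ne_zero _).2 (prod_ne_zero_iff.2 fun i _ => pow_ne_zero _ (u i).ne_zero)
  have h0 : ∑ e ∈ f.support, term f u e = 0 := by rw [← eval_eq_sum_term, hu f hf]
  rw [MvPolynomial.aeval_def, MvPolynomial.eval₂_eq',
    ← sum_weights_eq_zero (term f u) (fun e => (∏ i, z i ^ e i) /
      algebraMap K L (∏ i, (u i : K) ^ e i)) f.support h0 fun B hB hBm e he e' he' => ?_]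
  · exact sum_congr rfl fun e _ => by rw [term, map_mul, mul_assoc, mul_div_cancel₀ _ (huL e)]
  · have h := hzw _ (exponentDiff_mem_relExps hf hB hBm he he')
    rw [prod_zpow_exponentDiff hz, coe_character, prod_zpow_exponentDiff fun i => (u i).ne_zero,
      map_div₀, div_eq_div_iff (prod_ne_zero_iff.2 fun i _ => pow_ne_zero _ (hz i)) (huL _)] at h
    rw [div_eq_div_iff (huL _) (huL _)]
    linear_combination h

variable [CharZero K]

/-- **The values of the characters**: finitely many. -/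
theorem finite_character_values (F : Finset (MvPolynomial (Fin n) K))
    {Γ Γ₀ : Subgroup (Fin n → Kˣ)} (hΓ : Γ₀.FG) (hle : Γ ≤ divisionHull Γ₀) :
    ∃ V : Set Kˣ, V.Finite ∧ ∀ γ ∈ Γ, ∀ w ∈ relExps F γ, character w γ ∈ V := by
  classical
  obtain ⟨G, hG⟩ := hΓ
  set coords : Finset Kˣ := G.biUnion fun γ => univ.image γ
  set Γ' := divisionHull (Subgroup.closure (coords : Set Kˣ))
  have hcoord : ∀ γ ∈ Γ₀, ∀ i, γ i ∈ Subgroup.closure (coords : Set Kˣ) := fun γ hγ i => by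
    rw [← hG] at hγ
    induction hγ using Subgroup.closure_induction with
    | mem γ hγ =>
      exact Subgroup.subset_closure (mem_biUnion.2 ⟨γ, hγ, mem_image_of_mem _ (mem_univ i)⟩)
    | one => exact one_mem _
    | mul γ δ _ _ h h' => exact mul_mem h h'
    | inv γ _ h => exact inv_mem h
  have hmem : ∀ γ ∈ Γ, ∀ w, character w γ ∈ Γ' := fun γ hγ w => by
    obtain ⟨m, hm, hγm⟩ := hle hγ
    show ∏ i, γ i ^ w i ∈ Γ'
    exact Subgroup.prod_mem Γ' (fun i _ => Subgroup.zpow_mem Γ' ⟨m, hm, hcoord _ hγm i⟩ _)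
  have hfin : UnitEqFinite Γ' := unitEqFinite_divisionHull ⟨coords, rfl⟩
  let coef : MvPolynomial (Fin n) K → ∀ (B : Finset (Fin n →₀ ℕ)) (e' : B),
      ↥(B.erase e'.1) → K := fun f _ e' e => -(f.coeff e.1 / f.coeff e'.1)
  let V : Set Kˣ := ⋃ f ∈ F, ⋃ B ∈ f.support.powerset, ⋃ e' : B, ⋃ e : ↥(B.erase e'.1),
    (fun u : ↥(B.erase e'.1) → Kˣ => u e) '' {u | (∀ i, u i ∈ Γ') ∧
      ∑ i, coef f B e' i * (u i : K) = 1 ∧
      ∀ T : Finset ↥(B.erase e'.1), T.Nonempty → ∑ i ∈ T, coef f B e' i * (u i : K) ≠ 0}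
  have hV : V.Finite := F.finite_toSet.biUnion fun f _ =>
    f.support.powerset.finite_toSet.biUnion fun B hB => Set.finite_iUnion fun e' : B =>
      Set.finite_iUnion fun e : ↥(B.erase e'.1) =>
        (hfin.fintype (coef f B e') fun i => neg_ne_zero.2 (div_ne_zero
          (MvPolynomial.mem_support_iff.1 (mem_powerset.1 hB (mem_of_mem_erase i.2)))
          (MvPolynomial.mem_support_iff.1 (mem_powerset.1 hB e'.2)))).image _
  refine ⟨insert 1 V, hV.insert 1, fun γ hγ w hw => ?_⟩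
  obtain ⟨-, f, hf, B, hB, hBm, e, he, e', he', rfl⟩ := mem_relExps.1 hw
  by_cases hee : e = e'
  · left
    subst hee
    simp [character, exponentDiff]
  right
  have hc : ∀ a ∈ B, f.coeff a ≠ 0 := fun a ha => MvPolynomial.mem_support_iff.1 (hB ha)
  have hm : ∀ a : Fin n →₀ ℕ, ∏ i, (γ i : K) ^ a i ≠ 0 := fun a =>
    prod_ne_zero_iff.2 fun i _ => pow_ne_zero _ (γ i).ne_zero
  have hterm : ∀ a ∈ B, -(f.coeff a / f.coeff e') * (character (exponentDiff a e') γ : K) =
      -(term f γ a / term f γ e') := fun a _ => by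
    rw [coe_character, prod_zpow_exponentDiff fun i => (γ i).ne_zero, term, term, neg_mul,
      div_mul_div_comm]
  have ht0 : term f γ e' ≠ 0 := mul_ne_zero (hc e' he') (hm e')
  simp only [V, coef, Set.mem_iUnion]
  refine ⟨f, hf, B, mem_powerset.2 hB, ⟨e', he'⟩, ⟨e, mem_erase.2 ⟨hee, he⟩⟩,
    fun a => character (exponentDiff a.1 e') γ, ⟨fun a => hmem γ hγ _, ?_, fun T hT h0 => ?_⟩, rfl⟩
  · rw [sum_coe_sort (B.erase e') fun a =>
        -(f.coeff a / f.coeff e') * (character (exponentDiff a e') γ : K),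
      sum_congr rfl fun a ha => hterm a (mem_of_mem_erase ha), sum_neg_distrib, ← sum_div,
      sum_erase_eq_sub he', hBm.2.1, zero_sub, neg_div, neg_neg, div_self ht0]
  · rw [sum_congr rfl fun a _ => hterm a.1 (mem_of_mem_erase a.2), sum_neg_distrib, ← sum_div,
      neg_eq_zero, div_eq_zero_iff, or_iff_left ht0] at h0
    have h := hBm.2.2 (T.map (Function.Embedding.subtype _)) (fun a ha => by
      obtain ⟨b, -, rfl⟩ := mem_map.1 ha
      exact mem_of_mem_erase b.2) hT.map (by rw [sum_map]; exact h0)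
    obtain ⟨b, -, hb⟩ := mem_map.1 (h.ge he')
    exact notMem_erase e' B (Eq.subst (motive := fun x => x ∈ B.erase e') hb b.2)

/-- **Laurent's theorem**: finitely many cosets of algebraic subgroups inside the variety. -/
theorem exists_torus_cosets (F : Finset (MvPolynomial (Fin n) K))
    {Γ Γ₀ : Subgroup (Fin n → Kˣ)} (hΓ : Γ₀.FG) (hle : Γ ≤ divisionHull Γ₀) :
    ∃ 𝒮 : Set (Finset (Fin n → ℤ) × (Fin n → Kˣ)), 𝒮.Finite ∧
      (∀ p ∈ 𝒮, p.2 ∈ Γ) ∧
      (∀ p ∈ 𝒮, ∀ (L : Type v) [Field L] [Algebra K L] (z : Fin n → L), (∀ i, z i ≠ 0) →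
        (∀ w ∈ p.1, ∏ i, z i ^ w i = algebraMap K L (character w p.2)) →
        ∀ f ∈ F, MvPolynomial.aeval z f = 0) ∧
      (∀ p ∈ 𝒮, ∀ γ : Fin n → Kˣ, (∀ w ∈ p.1, character w γ = character w p.2) →
        ∀ f ∈ F, MvPolynomial.eval (fun i => (γ i : K)) f = 0) ∧
      ∀ γ ∈ Γ, (∀ f ∈ F, MvPolynomial.eval (fun i => (γ i : K)) f = 0) →
        ∃ p ∈ 𝒮, ∀ w ∈ p.1, character w γ = character w p.2 := by
  classical
  obtain ⟨V, hV, hval⟩ := finite_character_values F hΓ hle
  set E := allExps F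
  set Sol := {γ : Fin n → Kˣ | γ ∈ Γ ∧ ∀ f ∈ F, MvPolynomial.eval (fun i => (γ i : K)) f = 0}
  set key : (Fin n → Kˣ) → Finset (Fin n → ℤ) × (E → Kˣ) := fun γ =>
    (relExps F γ, fun w => if (w : Fin n → ℤ) ∈ relExps F γ then character w γ else 1)
  have hkey : (key '' Sol).Finite := by
    refine (E.powerset.finite_toSet.prod (Set.Finite.pi fun _ : E => hV.insert 1)).subset ?_
    rintro _ ⟨γ, hγ, rfl⟩
    refine ⟨mem_powerset.2 fun x hx => (mem_relExps.1 hx).1, fun w _ => ?_⟩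
    show (if _ then _ else _) ∈ insert 1 V
    split_ifs with h
    · exact Or.inr (hval γ hγ.1 w h)
    · exact Or.inl rfl
  choose! rep hrep hrepk using fun k (hk : k ∈ key '' Sol) => hk
  refine ⟨(fun k => (relExps F (rep k), rep k)) '' (key '' Sol), hkey.image _,
    ?_, ?_, ?_, fun γ hγ hz => ?_⟩
  · rintro _ ⟨k, hk, rfl⟩
    exact (hrep k hk).1
  · rintro _ ⟨k, hk, rfl⟩ L _ _ z hz hzw
    exact aeval_eq_zero_of_character (hrep k hk).2 z hz hzw
  · rintro _ ⟨k, hk, rfl⟩ γ hγ f hf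
    rw [← MvPolynomial.coe_aeval_eq_eval]
    refine aeval_eq_zero_of_character (hrep k hk).2 _ (fun i => (γ i).ne_zero) (fun w hw => ?_) f hf
    rw [Algebra.algebraMap_self, RingHom.id_apply, ← hγ w hw, coe_character]
  · have hk : key γ ∈ key '' Sol := ⟨γ, ⟨hγ, hz⟩, rfl⟩
    refine ⟨_, ⟨_, hk, rfl⟩, fun w hw => ?_⟩
    have he := hrepk _ hk
    have hW : relExps F (rep (key γ)) = relExps F γ := congrArg Prod.fst he
    have h := congrFun (congrArg Prod.snd he) ⟨w, (mem_relExps.1 hw).1⟩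
    simp only [key] at h
    rw [if_pos hw, if_pos (hW ▸ hw)] at h
    exact h.symm

/-- **Mordell–Lang for tori**: finitely many translates of subgroups. -/
theorem exists_torus_subgroup_cosets (F : Finset (MvPolynomial (Fin n) K))
    {Γ Γ₀ : Subgroup (Fin n → Kˣ)} (hΓ : Γ₀.FG) (hle : Γ ≤ divisionHull Γ₀) :
    ∃ 𝒯 : Set ((Fin n → Kˣ) × Subgroup (Fin n → Kˣ)), 𝒯.Finite ∧
      (∀ p ∈ 𝒯, p.1 ∈ Γ ∧ p.2 ≤ Γ ∧ ∀ η ∈ p.2, ∀ f ∈ F,
        MvPolynomial.eval (fun i => ((p.1 * η) i : K)) f = 0) ∧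
      ∀ γ ∈ Γ, (∀ f ∈ F, MvPolynomial.eval (fun i => (γ i : K)) f = 0) →
        ∃ p ∈ 𝒯, p.1⁻¹ * γ ∈ p.2 := by
  obtain ⟨𝒮, hfin, hmem, -, hin, hcov⟩ := exists_torus_cosets.{0} F hΓ hle
  refine ⟨(fun p => (p.2, Γ ⊓ ⨅ w ∈ p.1, (character w).ker)) '' 𝒮, hfin.image _, ?_,
    fun γ hγ hz => ?_⟩
  · rintro _ ⟨p, hp, rfl⟩
    refine ⟨hmem p hp, inf_le_left, fun η hη f hf => hin p hp _ (fun w hw => ?_) f hf⟩
    rw [map_mul, show character w η = 1 from MonoidHom.mem_ker.1
      (Subgroup.mem_iInf.1 (Subgroup.mem_iInf.1 hη.2 w) hw), mul_one]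
  · obtain ⟨p, hp, hpw⟩ := hcov γ hγ hz
    refine ⟨_, ⟨p, hp, rfl⟩, Γ.mul_mem (Γ.inv_mem (hmem p hp)) hγ,
      Subgroup.mem_iInf.2 fun w => Subgroup.mem_iInf.2 fun hw => MonoidHom.mem_ker.2 ?_⟩
    rw [map_mul, map_inv, inv_mul_eq_one, hpw w hw]

end

end FA.UnitEquationFields

end
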