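import Fermat.Agent.UnitEquationFields.Constants
import Mathlib.RingTheory.Derivation.Basic
import Mathlib.LinearAlgebra.Matrix.NonsingularInverse
import Mathlib.LinearAlgebra.Matrix.ToLinearEquiv
import Mathlib.RingTheory.Finiteness.Subalgebra
import Mathlib.RingTheory.Valuation.LocalSubring
import Mathlib.RingTheory.Algebraic.Basic

/-!
# Wronskians and valuations over the constants of a derivation

For a derivation with constants `C`, linearly independent `μ i * b i * w i` with sum one, `w i` in
the division hull of a finitely generated group, are quotients of elements of one finite-dimensional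
`C`-space (Cramer on the Wronskian). A valuation trivial on `C` takes finitely many values on
such a space.
-/

set_option autoImplicit false

noncomputable section

open Finset

namespace FA.UnitEquationFields

variable {C F : Type*} [Field C] [Field F] [Algebra C F] {D : Derivation C F F}

/-- The Wronskian criterion. -/
theorem eq_zero_of_wronskian {ι : Type*} [DecidableEq ι] {f : ι → F}
    (hD : ∀ x, D x = 0 → x ∈ Set.range (algebraMap C F)) (s : Finset ι) :
    LinearIndepOn C f (s : Set ι) → ∀ c : ι → F,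
      (∀ j < s.card, ∑ i ∈ s, c i * D^[j] (f i) = 0) → ∀ i ∈ s, c i = 0 := by
  induction s using Finset.strongInduction with
  | _ s ih =>
    intro hf c hc i₀ hi₀
    by_contra hne
    set d : ι → F := fun i => c i / c i₀
    have hd : ∀ j < s.card, ∑ i ∈ s, d i * D^[j] (f i) = 0 := fun j hj => by
      rw [← zero_div (c i₀), ← hc j hj, sum_div]
      exact sum_congr rfl fun i _ => by rw [div_mul_eq_mul_div]
    have hd0 : d i₀ = 1 := div_self hne
    have hder : ∀ i ∈ s.erase i₀, D (d i) = 0 := by
      refine ih _ (erase_ssubset hi₀) (hf.mono (coe_subset.2 (erase_subset _ _))) _ fun j hj => ?_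
      rw [card_erase_of_mem hi₀] at hj
      have h := congrArg D (hd j (by omega))
      rw [map_sum, map_zero] at h
      simp only [Derivation.leibniz, smul_eq_mul, sum_add_distrib] at h
      rw [sum_congr rfl fun i _ => show d i * D (D^[j] (f i)) = d i * D^[j + 1] (f i) by
        rw [Function.iterate_succ_apply'], hd (j + 1) (by omega), zero_add,
        ← add_sum_erase _ _ hi₀, hd0, D.map_one_eq_zero, mul_zero, zero_add] at h
      exact (sum_congr rfl fun i _ => mul_comm _ _).trans h
    have hconst : ∀ i, ∃ e : C, i ∈ s → algebraMap C F e = d i := fun i => by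
      by_cases hi : i ∈ s
      · by_cases h : i = i₀
        · exact ⟨1, fun _ => by rw [map_one, h, hd0]⟩
        · obtain ⟨e, he⟩ := hD _ (hder i (mem_erase.2 ⟨h, hi⟩))
          exact ⟨e, fun _ => he⟩
      · exact ⟨0, fun h => absurd h hi⟩
    choose e he using hconst
    have h0 := hd 0 (card_pos.2 ⟨i₀, hi₀⟩)
    have hzero := linearIndepOn_finset_iff.1 hf e (by
      rw [← h0]
      exact sum_congr rfl fun i hi => by rw [Algebra.smul_def, he i hi, Function.iterate_zero, id])
    have := he i₀ hi₀
    rw [hzero i₀ hi₀, map_zero, hd0] at this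
    exact zero_ne_one this

theorem exists_fg_logDeriv [CharZero C] {Γ : Subgroup Fˣ} (hΓ : Γ.FG) {ι : Type*} [Fintype ι]
    (b : ι → F) :
    ∃ L : Submodule C F, L.FG ∧ ∀ (i : ι) (u : Fˣ) (μ : C), u ∈ divisionHull Γ → b i ≠ 0 → μ ≠ 0 →
      D (algebraMap C F μ * b i * u) / (algebraMap C F μ * b i * u) ∈ L := by
  classical
  obtain ⟨G, hG⟩ := hΓ
  set A : Finset F :=
    (univ.image fun i => D (b i) / b i) ∪ G.image fun g : Fˣ => D (g : F) / (g : F)
  refine ⟨Submodule.span C A, Submodule.fg_span A.finite_toSet, fun i u μ hu hb hμ => ?_⟩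
  have hmul : ∀ x y : F, x ≠ 0 → y ≠ 0 → D (x * y) / (x * y) = D x / x + D y / y := fun x y hx hy =>
    by rw [D.leibniz, smul_eq_mul, smul_eq_mul]; field_simp; ring
  have hμ' : algebraMap C F μ ≠ 0 := (map_ne_zero _).2 hμ
  rw [hmul _ _ (mul_ne_zero hμ' hb) u.ne_zero, hmul _ _ hμ' hb, D.map_algebraMap, zero_div,
    zero_add]
  refine add_mem (Submodule.subset_span (mem_coe.2 (mem_union_left _
    (mem_image_of_mem _ (mem_univ i))))) ?_
  obtain ⟨m, hm, hum⟩ := hu
  suffices key : ∀ v ∈ Γ, D (v : F) / (v : F) ∈ Submodule.span C (A : Set F) by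
    have h := key _ hum
    rw [Units.val_pow_eq_pow_val, D.leibniz_pow,
      show (m • (u : F) ^ (m - 1) • D (u : F)) / (u : F) ^ m = (m : C) • (D (u : F) / (u : F)) by
        obtain ⟨k, rfl⟩ := Nat.exists_eq_succ_of_ne_zero hm
        rw [Algebra.smul_def ((k.succ : ℕ) : C), map_natCast, smul_eq_mul, nsmul_eq_mul,
          Nat.succ_sub_one, pow_succ]
        field_simp [u.ne_zero]] at h
    have := Submodule.smul_mem _ ((m : C)⁻¹) h
    rwa [inv_smul_smul₀ (Nat.cast_ne_zero.2 hm)] at this
  intro v hv
  rw [← hG] at hv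
  induction hv using Subgroup.closure_induction with
  | mem g hg => exact Submodule.subset_span (mem_coe.2 (mem_union_right _ (mem_image_of_mem _ hg)))
  | one => simp
  | mul x y _ _ hx hy =>
    rw [Units.val_mul, hmul _ _ x.ne_zero y.ne_zero]
    exact add_mem hx hy
  | inv x _ hx =>
    have h := hmul (x : F) ((x⁻¹ : Fˣ) : F) x.ne_zero x⁻¹.ne_zero
    rw [← Units.val_mul, mul_inv_cancel, Units.val_one, D.map_one_eq_zero, zero_div] at h
    rw [eq_neg_of_add_eq_zero_right h.symm]
    exact neg_mem hx

theorem exists_fg_iterate [CharZero C] {Γ : Subgroup Fˣ} (hΓ : Γ.FG) {ι : Type*} [Fintype ι]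
    (b : ι → F) (N : ℕ) : ∃ V : Submodule C F, V.FG ∧ 1 ∈ V ∧ ∀ j ≤ N, ∀ (i : ι) (u : Fˣ) (μ : C),
      u ∈ divisionHull Γ → b i ≠ 0 → μ ≠ 0 →
        D^[j] (algebraMap C F μ * b i * u) / (algebraMap C F μ * b i * u) ∈ V := by
  obtain ⟨L, hL, hLmem⟩ := exists_fg_logDeriv (D := D) hΓ b
  induction N with
  | zero =>
    refine ⟨Submodule.span C {1}, Submodule.fg_span_singleton 1,
      Submodule.mem_span_singleton_self 1, fun j hj i u μ _ hb hμ => ?_⟩
    obtain rfl := Nat.le_zero.1 hj
    rw [Function.iterate_zero, id, div_self (mul_ne_zero (mul_ne_zero ((map_ne_zero _).2 hμ) hb)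
      u.ne_zero)]
    exact Submodule.mem_span_singleton_self 1
  | succ N ih =>
    obtain ⟨V, hV, h1, hVmem⟩ := ih
    refine ⟨V ⊔ (V.map (D : F →ₗ[C] F) ⊔ V * L), hV.sup ((hV.map _).sup (hV.mul hL)),
      Submodule.mem_sup_left h1, fun j hj i u μ hu hb hμ => ?_⟩
    rcases Nat.lt_or_eq_of_le hj with h | rfl
    · exact Submodule.mem_sup_left (hVmem j (by omega) i u μ hu hb hμ)
    set x := algebraMap C F μ * b i * u
    have hx : x ≠ 0 := mul_ne_zero (mul_ne_zero ((map_ne_zero _).2 hμ) hb) u.ne_zero
    have hv := hVmem N le_rfl i u μ hu hb hμ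
    have key : D^[N + 1] x / x = D (D^[N] x / x) + D^[N] x / x * (D x / x) := by
      have h : D (D^[N] x / x * x) = D^[N + 1] x := by
        rw [div_mul_cancel₀ _ hx, Function.iterate_succ_apply']
      rw [D.leibniz, smul_eq_mul, smul_eq_mul] at h
      rw [← h]
      field_simp
      ring
    rw [key]
    exact Submodule.mem_sup_right (add_mem (Submodule.mem_sup_left (Submodule.mem_map_of_mem hv))
      (Submodule.mem_sup_right (Submodule.mul_mem_mul hv (hLmem i u μ hu hb hμ))))

theorem pow_mem_of_le {V : Submodule C F} (h1 : 1 ∈ V) {m N : ℕ} (h : m ≤ N) : V ^ m ≤ V ^ N :=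
  pow_le_pow_right' (Submodule.one_le.2 h1) h

theorem prod_mem_pow_card {α : Type*} {V : Submodule C F} (t : Finset α) {g : α → F}
    (hg : ∀ i ∈ t, g i ∈ V) : ∏ i ∈ t, g i ∈ V ^ t.card := by
  classical
  induction t using Finset.induction with
  | empty => simp [Submodule.one_eq_span, Submodule.mem_span_singleton_self]
  | insert a t ha ih =>
    rw [prod_insert ha, card_insert_of_notMem ha, pow_succ']
    exact Submodule.mul_mem_mul (hg a (mem_insert_self a t))
      (ih fun i hi => hg i (mem_insert_of_mem hi))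

theorem det_mem_pow {α : Type*} [Fintype α] [DecidableEq α] {V : Submodule C F}
    {M : Matrix α α F} (hM : ∀ i j, M i j ∈ V) : M.det ∈ V ^ Fintype.card α := by
  rw [Matrix.det_apply]
  refine Submodule.sum_mem _ fun σ _ => ?_
  have h : ∏ i, M (σ i) i ∈ V ^ Fintype.card α := prod_mem_pow_card univ fun i _ => hM _ _
  rcases Int.units_eq_one_or (Equiv.Perm.sign σ) with e | e <;> rw [e] <;> simp [h]

/-- **Cramer on the Wronskian**: independent summands of one lie in a quotient of a small space. -/
theorem exists_fg_quotient [CharZero C] (hD : ∀ x, D x = 0 → x ∈ Set.range (algebraMap C F))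
    {Γ : Subgroup Fˣ} (hΓ : Γ.FG) {ι : Type*} [Fintype ι] [DecidableEq ι] (b : ι → F)
    (hb : ∀ i, b i ≠ 0) :
    ∃ U : Submodule C F, U.FG ∧ ∀ (E : Finset ι) (μ : ι → C) (u : ι → Fˣ),
      (∀ i, u i ∈ divisionHull Γ) →
      (∀ i, μ i ≠ 0) → LinearIndepOn C (fun i => algebraMap C F (μ i) * b i * u i) (E : Set ι) →
      ∑ i ∈ E, algebraMap C F (μ i) * b i * u i = 1 →
      ∀ i ∈ E, ∃ p ∈ U, ∃ q ∈ U, q ≠ 0 ∧ algebraMap C F (μ i) * b i * u i = p / q := by
  obtain ⟨V, hV, h1, hVmem⟩ := exists_fg_iterate (D := D) hΓ b (Fintype.card ι)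
  refine ⟨V ^ Fintype.card ι, hV.pow _, fun E μ u hu hμ hind hsum i₀ hi₀ => ?_⟩
  set f : ι → F := fun i => algebraMap C F (μ i) * b i * u i
  have hf : ∀ i, f i ≠ 0 := fun i =>
    mul_ne_zero (mul_ne_zero ((map_ne_zero _).2 (hμ i)) (hb i)) (u i).ne_zero
  set e := E.equivFin
  have hcard : E.card ≤ Fintype.card ι := E.card_le_univ
  set M : Matrix E E F := fun j i => D^[(e j : ℕ)] (f i) / f i
  have hMmem : ∀ j i, M j i ∈ V := fun j i =>
    hVmem _ ((e j).2.le.trans hcard) i _ _ (hu i) (hb i) (hμ i)
  have hle : V ^ Fintype.card E ≤ V ^ Fintype.card ι :=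
    pow_mem_of_le h1 (by rwa [Fintype.card_coe])
  have hdet : M.det ≠ 0 := fun h => by
    obtain ⟨v, hv, hMv⟩ := Matrix.exists_mulVec_eq_zero_iff.2 h
    refine hv (funext fun i => ?_)
    have key := eq_zero_of_wronskian hD E hind
      (fun k => if hk : k ∈ E then v ⟨k, hk⟩ / f k else 0) (fun j hj => ?_) i i.2
    · simpa [hf] using key
    · have := congrFun hMv (e.symm ⟨j, hj⟩)
      simp only [Matrix.mulVec, dotProduct, M, Equiv.apply_symm_apply, Pi.zero_apply] at this
      rw [← this, ← sum_coe_sort E]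
      exact sum_congr rfl fun k _ => by rw [dif_pos k.2]; ring
  set y : E → F := fun i => f i
  have hMy : ∀ j, M.mulVec y j = if (e j : ℕ) = 0 then 1 else 0 := fun j => by
    simp only [Matrix.mulVec, dotProduct, M, y, div_mul_cancel₀ _ (hf _)]
    rw [sum_coe_sort E fun i => D^[(e j : ℕ)] (f i)]
    split_ifs with h
    · simpa [h] using hsum
    · obtain ⟨k, hk⟩ := Nat.exists_eq_succ_of_ne_zero h
      rw [hk]
      simp only [Function.iterate_succ_apply']
      rw [← map_sum]
      have : ∀ k, ∑ i ∈ E, D^[k] (f i) = D^[k] 1 := fun k => by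
        induction k with
        | zero => simpa using hsum
        | succ k ih => simp only [Function.iterate_succ_apply']; rw [← map_sum, ih]
      rw [this]
      clear hk this h
      induction k with
      | zero => simp [D.map_one_eq_zero]
      | succ k ih => rw [Function.iterate_succ_apply', ih, map_zero]
  refine ⟨(M.adjugate.mulVec (M.mulVec y)) ⟨i₀, hi₀⟩, ?_, M.det, hle (det_mem_pow hMmem), hdet, ?_⟩
  · rw [show (M.adjugate.mulVec (M.mulVec y)) ⟨i₀, hi₀⟩ =
      ∑ j, M.adjugate ⟨i₀, hi₀⟩ j * M.mulVec y j from rfl]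
    refine Submodule.sum_mem _ fun j _ => ?_
    rw [hMy]
    split_ifs
    · rw [mul_one, Matrix.adjugate_apply]
      refine hle (det_mem_pow fun k l => ?_)
      rw [Matrix.updateRow_apply]
      split_ifs
      · rw [Pi.single_apply]
        split_ifs
        exacts [h1, zero_mem V]
      · exact hMmem _ _
    · rw [mul_zero]
      exact zero_mem _
  · rw [Matrix.mulVec_mulVec, Matrix.adjugate_mul, Matrix.smul_mulVec, Matrix.one_mulVec,
      Pi.smul_apply, smul_eq_mul, mul_div_cancel_left₀ _ hdet]

/-- A valuation subring is trivial on the constants. -/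
def TrivialOn (C : Type*) [Field C] [Algebra C F] (B : ValuationSubring F) : Prop :=
  ∀ c : C, algebraMap C F c ∈ B

theorem valuation_const {B : ValuationSubring F} (hB : TrivialOn C B) {c : C} (hc : c ≠ 0) :
    B.valuation (algebraMap C F c) = 1 := by
  refine le_antisymm ((B.valuation_le_one_iff _).2 (hB c)) ?_
  have h := (B.valuation_le_one_iff _).2 (hB c⁻¹)
  rwa [map_inv₀, map_inv₀, inv_le_one₀ (zero_lt_iff.2 ((Valuation.ne_zero_iff _).2
    ((map_ne_zero _).2 hc)))] at h

theorem finite_values {B : ValuationSubring F} (hB : TrivialOn C B) {U : Submodule C F}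
    (hU : U.FG) : (B.valuation '' {x | x ∈ U ∧ x ≠ 0}).Finite := by
  classical
  haveI : Module.Finite C U := Module.Finite.iff_fg.2 hU
  by_contra hinf
  obtain ⟨A, hA, hcard⟩ := Set.Infinite.exists_subset_card_eq hinf (Module.finrank C U + 1)
  choose! x hx hxv using fun g (hg : g ∈ A) => hA hg
  let w : A → U := fun g => ⟨x g, (hx g g.2).1⟩
  have hind : LinearIndependent C w := by
    rw [Fintype.linearIndependent_iff]
    intro c hc g
    by_contra hg
    set t := univ.filter fun g : A => c g ≠ 0
    obtain ⟨m, hm, hmax⟩ := exists_max_image t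
      (fun g => B.valuation (x g)) ⟨g, mem_filter.2 ⟨mem_univ _, hg⟩⟩
    have hval : ∀ g ∈ t, B.valuation (algebraMap C F (c g) * x g) = B.valuation (x g) :=
      fun g hg => by rw [map_mul, valuation_const hB (mem_filter.1 hg).2, one_mul]
    have hsum : ∑ g ∈ t, algebraMap C F (c g) * x g = 0 := by
      have h := congrArg Subtype.val hc
      simp only [Submodule.coe_sum, Submodule.coe_smul, Submodule.coe_zero, w,
        Algebra.smul_def] at h
      rw [← h, sum_filter]
      refine sum_congr rfl fun g _ => ?_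
      split_ifs with h'
      · rfl
      · rw [not_not.1 h', map_zero, zero_mul]
    have h := Valuation.map_sum_eq_of_lt B.valuation hm
      (f := fun g : A => algebraMap C F (c g) * x g) fun i hi => by
        obtain ⟨hit, hne⟩ := mem_sdiff.1 hi
        rw [hval i hit, hval m hm]
        refine lt_of_le_of_ne (hmax i hit) fun e => hne (mem_singleton.2 (Subtype.ext ?_))
        rw [hxv _ i.2, hxv _ m.2] at e
        exact e
    rw [hsum, map_zero, hval m hm] at h
    exact (Valuation.ne_zero_iff _).2 (hx m m.2).2 h.symm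
  have := hind.fintype_card_le_finrank
  rw [Fintype.card_coe, hcard] at this
  omega

/-- A transcendental element is a nonunit for some valuation trivial on the constants. -/
theorem exists_valuation_lt_one {x : F} (hx : Transcendental C x) :
    ∃ B : ValuationSubring F, TrivialOn C B ∧ B.valuation x < 1 := by
  set R := (Algebra.adjoin C {x}).toSubring
  set x' : R := ⟨x, Algebra.self_mem_adjoin_singleton C x⟩
  have htop : Ideal.span {x'} ≠ ⊤ := by
    rw [Ne, Ideal.span_singleton_eq_top, isUnit_iff_exists_inv]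
    rintro ⟨⟨y, hy⟩, hxy⟩
    have hy' : y ∈ Algebra.adjoin C {x} := hy
    rw [Algebra.adjoin_singleton_eq_range_aeval] at hy'
    obtain ⟨p, rfl⟩ := hy'
    have h1 : x * Polynomial.aeval x p = 1 := congrArg Subtype.val hxy
    refine hx ⟨Polynomial.X * p - 1, fun h => ?_, by simp [h1]⟩
    have := congrArg (fun q => Polynomial.coeff q 0) h
    simp at this
  obtain ⟨B, hRB, hIB⟩ := Ideal.image_subset_nonunits_valuationSubring (Ideal.span {x'}) htop
  exact ⟨B, fun c => hRB (Subalgebra.algebraMap_mem _ c), (ValuationSubring.mem_nonunits_iff B).1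
    (hIB ⟨x', Ideal.mem_span_singleton_self x', rfl⟩)⟩

end FA.UnitEquationFields

end
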